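/-
MLT / VertP (helper8), part 1: **`E₄(z) / E₄(pz) ∈ ℚ(X₀(p))`** for every prime `p`.

The holomorphic `Γ₀(p)`-invariant function `A_p(z) = E₄(z) E₄(pz)² / Δ(pz)` has rational expansions at
the two cusps, hence (`ef_mem_full_of_gamma0_invariant_one`) its `q`-expansion lies in
`modularFunctionFieldFull p`; dividing by `j(pz) = E₄(pz)³/Δ(pz)` gives `F_p = E₄(z)/E₄(pz)`.

* `mltvpFLS K p = E₄(q) / E₄(q^p)`, `mltvpFLS_mem_full`;
* `mltvpFLS_cube : F_p³ · j(q^p) = j(q) · Δ(q)/Δ(q^p)`.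
-/
import Mathlib
import Fermat.Agent.Lib.Eis.Eta.EtaQuotField

set_option autoImplicit false
set_option linter.unusedSectionVars false
set_option linter.unusedVariables false

open HahnSeries ModularCurve ModularForm Complex ModularGroup CongruenceSubgroup
open Fermat.Agent.ES Fermat.Agent.S24Lib Fermat.Agent.Igusa Fermat.Agent.Eis
open UpperHalfPlane hiding I
open scoped Real MatrixGroups ModularForm Manifold

noncomputable section

namespace Fermat.Agent.MLT

local notation "Δ" => ModularForm.discriminant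

/-! ### the weight `-4` function `B = E₄² / Δ` -/

/-- `B(z) = E₄(z)² / Δ(z)` -/
def mltvpB : ℍ → ℂ := fun z => E₄ z ^ 2 * (Δ z)⁻¹

theorem mltvpB_smul (γ : SL(2, ℤ)) (z : ℍ) :
    mltvpB (γ • z) = (denom γ z ^ 4)⁻¹ * mltvpB z := by
  have hd : denom γ z ≠ 0 := denom_ne_zero γ z
  have hΔ := discriminant_ne_zero z
  unfold mltvpB
  rw [E₄_smul, discriminant_smul, show (denom γ z ^ (4 : ℤ)) = denom γ z ^ 4 by norm_cast,
    show (denom γ z ^ (12 : ℤ)) = denom γ z ^ 12 by norm_cast]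
  field_simp

theorem mltvpB_isQLaurentable : IsQLaurentable 1 mltvpB :=
  (ee_isQLaurentable_E4.pow 2).mul isQLaurentable_discriminant_inv

theorem mltvpB_qLaurent : qLaurent 1 mltvpB = eeE4LS ℂ ^ 2 * deltaInvLS ℂ := by
  unfold mltvpB
  rw [qLaurent_mul (ee_isQLaurentable_E4.pow 2) isQLaurentable_discriminant_inv,
    qLaurent_pow ee_isQLaurentable_E4, ee_qLaurent_E4, qLaurent_discriminant_inv]

/-! ### the function `A_p` -/

/-- `A_p(z) = E₄(z) E₄(pz)² / Δ(pz)` -/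
def mltvpA (p : ℕ) [NeZero p] : ℍ → ℂ := fun z => E₄ z * mltvpB (eeScale p z)

theorem mltvpA_gamma0_invariant (p : ℕ) [NeZero p] (γ : SL(2, ℤ)) (hγ : γ ∈ Gamma0 p) (z : ℍ) :
    mltvpA p (γ • z) = mltvpA p z := by
  have h := ee_gamma0_dvd hγ
  have hd : denom γ z ≠ 0 := denom_ne_zero γ z
  unfold mltvpA
  rw [eeScale_smul_gamma0 p γ h, mltvpB_smul, denom_efConjSL, E₄_smul,
    show (denom γ z ^ (4 : ℤ)) = denom γ z ^ 4 by norm_cast]
  field_simp

theorem mltvpA_S (p : ℕ) [NeZero p] (z : ℍ) :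
    mltvpA p (S • z) = (p : ℂ) ^ 4 * (E₄ z * mltvpB (eeDiv p z)) := by
  have hp : (p : ℂ) ≠ 0 := by exact_mod_cast NeZero.ne p
  have hz : (z : ℂ) ≠ 0 := ne_zero z
  unfold mltvpA
  rw [eeScale_smul_S, mltvpB_smul, E₄_smul, denom_S, denom_S, coe_eeDiv,
    show ((z : ℂ) ^ (4 : ℤ)) = (z : ℂ) ^ 4 by norm_cast]
  field_simp

/-! ### the formal series -/

section Formal

variable (K : Type*) [CommRing K] (p : ℕ) [NeZero p]

/-- the expansion of `A_p` at `∞` -/
def mltvpALS : LaurentSeries K :=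
  eeE4LS K * qExpand K p (eeE4LS K ^ 2 * deltaInvLS K)

/-- the expansion of `A_p ∘ S` in `q^{1/p}` -/
def mltvpASLS : LaurentSeries K :=
  HahnSeries.C ((p : K) ^ 4) * (qExpand K p (eeE4LS K) * (eeE4LS K ^ 2 * deltaInvLS K))

variable {K}

theorem lsMapHom_mltvpALS {S : Type*} [CommRing S] (φ : K →+* S) :
    lsMapHom φ (mltvpALS K p) = mltvpALS S p := by
  simp only [mltvpALS, map_mul, map_pow, lsMapHom_qExpand, lsMapHom_eeE4LS, lsMapHom_deltaInvLS]

theorem lsMapHom_mltvpASLS {S : Type*} [CommRing S] (φ : K →+* S) :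
    lsMapHom φ (mltvpASLS K p) = mltvpASLS S p := by
  simp only [mltvpASLS, map_mul, map_pow, lsMapHom_qExpand, lsMapHom_eeE4LS, lsMapHom_deltaInvLS,
    map_natCast]

end Formal

/-! ### the expansions -/

section Expansions

variable (p : ℕ) [NeZero p]

theorem mltvp_qLaurent_A :
    IsQLaurentable 1 (mltvpA p) ∧ qLaurent 1 (mltvpA p) = mltvpALS ℂ p := by
  have hE := ee_isQLaurentable_E4
  have hC := ee_qLaurent_comp_scale p mltvpB_isQLaurentable
  refine ⟨hE.mul hC.1, ?_⟩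
  unfold mltvpA
  rw [qLaurent_mul hE hC.1, hC.2, ee_qLaurent_E4, mltvpB_qLaurent, mltvpALS]

theorem mltvp_qLaurent_A_S :
    IsQLaurentable p (fun z => mltvpA p (S • z)) ∧
      qLaurent p (fun z => mltvpA p (S • z)) = mltvpASLS ℂ p := by
  have hc : IsQLaurentable p (fun _ : ℍ => (p : ℂ) ^ 4) := IsQLaurentable.const p _
  have hE := qLaurent_change_period p ee_isQLaurentable_E4
  have hC := ee_qLaurent_comp_div p mltvpB_isQLaurentable
  have hfun : (fun z => mltvpA p (S • z)) =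
      fun z => (p : ℂ) ^ 4 * (E₄ z * mltvpB (eeDiv p z)) := by
    funext z
    exact mltvpA_S p z
  rw [hfun]
  refine ⟨hc.mul (hE.1.mul hC.1), ?_⟩
  rw [qLaurent_mul hc (hE.1.mul hC.1), qLaurent_const, qLaurent_mul hE.1 hC.1, hE.2, hC.2,
    ee_qLaurent_E4, mltvpB_qLaurent, mltvpASLS]

end Expansions

/-! ### membership -/

section Field

variable (p : ℕ) [Fact p.Prime] [NeZero p]

/-- `A_p ∈ ℚ(X₀(p))` -/
theorem mltvpALS_mem_full : mltvpALS ℚ p ∈ modularFunctionFieldFull p := by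
  have h1 := mltvp_qLaurent_A p
  have h2 := mltvp_qLaurent_A_S p
  exact ef_mem_full_of_gamma0_invariant_one p (mltvpA p)
    (fun γ hγ z => mltvpA_gamma0_invariant p γ hγ z)
    (mltvpALS ℚ p) (mltvpASLS ℚ p) h1.1 (by rw [h1.2, lsMapHom_mltvpALS]) h2.1
    (by rw [h2.2, lsMapHom_mltvpASLS])

end Field

end Fermat.Agent.MLT
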