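/-
MLT / VertP (helper8), part 2: **a vertical function of multiplicity `4` at EVERY prime `q`** (in
particular `q = 3`), the series.

`q` a prime.  With `F = E₄(z)/E₄(qz) ∈ ℚ(X₀(q))` (part 1) and `t₂ = E₄²/(η(z)η(2z))⁸ ∈ ℚ(X₀(2))`
(`eeTLS · 2 1`, `t₂³ = j² D₂`) put
  `G = F² · t₂(qz)/t₂(z)  (= (η(z)η(2z)/(η(qz)η(2qz)))⁸)`,  `g = D_q / G`,  `u = D₂(qz)/D₂(z)`,
where `D_r = Δ(z)/Δ(rz)` (`unitFinLS`).  Then `g³ · u = D_q`, and `g ∈ ℚ(X₀(N))` as soon as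
`2q ∣ N`.  No congruence condition on `q`: this is the vertical function needed at `q = 3`.

* `mltvpFLS K q`, `mltvpFLS_cube`, `mltvpFLS_mem_full`;
* `mltvpVLS K q`, `mltvpULS K q`, `mltvpVLS_cube : g³ · u = D_q`;
* `mltvpVLS_mem_full`, `mltvpVLS_mem : g ∈ TaF L N`; `lsMapHom_mltvpVLS` (base change).
-/
import Mathlib
import Fermat.Agent.Lib.MLT.VertP.E4Quot
import Fermat.Agent.Lib.T1.GoodRed.Level
import Fermat.Agent.Lib.Delta.NodeX.VertGen

set_option autoImplicit false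
set_option linter.unusedSectionVars false
set_option linter.unusedVariables false
set_option linter.style.haveILetI false

open HahnSeries ModularCurve Fermat.Agent.Igusa Fermat.Agent.T1 Fermat.Agent.Eis Fermat.Agent.Delta

noncomputable section

namespace Fermat.Agent.MLT

section Series

variable (K : Type*) [Field K] (q : ℕ) [NeZero q]

theorem mltvp_jqModC_ne_zero : jqModC K ≠ 0 := jqModC_ne_zero_of_nontrivial K

theorem mltvp_eeE4LS_ne_zero : eeE4LS K ≠ 0 := by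
  intro h
  have h1 := jqModC_eq_eeE4LS K
  rw [h, zero_pow (by norm_num), zero_mul] at h1
  exact mltvp_jqModC_ne_zero K h1

theorem mltvp_deltaInvLS_ne_zero : deltaInvLS K ≠ 0 := by
  intro h
  have h1 := deltaLS_mul_deltaInvLS K
  rw [h, mul_zero] at h1
  exact zero_ne_one h1

theorem mltvp_qExpand_ne_zero {f : LaurentSeries K} (hf : f ≠ 0) : qExpand K q f ≠ 0 := by
  intro h
  apply hf
  apply qExpand_injective (R := K) (N := q)
  rw [h, map_zero]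

/-- `F = E₄(q) / E₄(q^p)` -/
def mltvpFLS : LaurentSeries K := eeE4LS K * (qExpand K q (eeE4LS K))⁻¹

/-- `F = A / j(q^p)` -/
theorem mltvpFLS_eq : mltvpFLS K q = mltvpALS K q * (qExpand K q (jqModC K))⁻¹ := by
  have hE := mltvp_qExpand_ne_zero K q (mltvp_eeE4LS_ne_zero K)
  have hD := mltvp_qExpand_ne_zero K q (mltvp_deltaInvLS_ne_zero K)
  rw [mltvpFLS, mltvpALS, jqModC_eq_eeE4LS, map_mul, map_mul, map_pow, map_pow]
  field_simp

/-- **`F³ · j(q^p) = j(q) · D_p`** -/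
theorem mltvpFLS_cube :
    mltvpFLS K q ^ 3 * qExpand K q (jqModC K) = jqModC K * unitFinLS K q := by
  have hE := mltvp_qExpand_ne_zero K q (mltvp_eeE4LS_ne_zero K)
  have h1 : jqModC K * unitFinLS K q = eeE4LS K ^ 3 * qExpand K q (deltaInvLS K) := by
    rw [jqModC_eq_eeE4LS, unitFinLS]
    calc eeE4LS K ^ 3 * deltaInvLS K * (deltaLS K * qExpand K q (deltaInvLS K))
        = eeE4LS K ^ 3 * (deltaInvLS K * deltaLS K) * qExpand K q (deltaInvLS K) := by ring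
      _ = _ := by rw [deltaInvLS_mul_deltaLS, mul_one]
  rw [h1, mltvpFLS, jqModC_eq_eeE4LS, map_mul, map_pow]
  field_simp

theorem mltvpFLS_ne_zero : mltvpFLS K q ≠ 0 :=
  mul_ne_zero (mltvp_eeE4LS_ne_zero K)
    (inv_ne_zero (mltvp_qExpand_ne_zero K q (mltvp_eeE4LS_ne_zero K)))

theorem mltvp_eeTLS_two_ne_zero : eeTLS K 2 1 ≠ 0 := by
  intro h
  have h1 := eeTLS_cube K 2 (k := 1) (by norm_num)
  rw [h, zero_pow (by norm_num)] at h1
  exact mul_ne_zero (pow_ne_zero 2 (mltvp_jqModC_ne_zero K)) (dlxv_unitFinLS_ne_zero K 2) h1.symm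

/-- `G = F² · t₂(q^p) / t₂(q) = (η(z)η(2z)/(η(pz)η(2pz)))⁸` -/
def mltvpGLS : LaurentSeries K :=
  mltvpFLS K q ^ 2 * qExpand K q (eeTLS K 2 1) * (eeTLS K 2 1)⁻¹

theorem mltvpGLS_ne_zero : mltvpGLS K q ≠ 0 :=
  mul_ne_zero (mul_ne_zero (pow_ne_zero 2 (mltvpFLS_ne_zero K q))
    (mltvp_qExpand_ne_zero K q (mltvp_eeTLS_two_ne_zero K))) (inv_ne_zero (mltvp_eeTLS_two_ne_zero K))

/-- the vertical function of multiplicity `4`: `g = D_q / G` -/
def mltvpVLS : LaurentSeries K := unitFinLS K q * (mltvpGLS K q)⁻¹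

/-- the correcting unit `u = D₂(q^p) / D₂(q)` -/
def mltvpULS : LaurentSeries K := qExpand K q (unitFinLS K 2) * (unitFinLS K 2)⁻¹

/-- `G³ = D_q² · u` -/
theorem mltvpGLS_cube : mltvpGLS K q ^ 3 = unitFinLS K q ^ 2 * mltvpULS K q := by
  have hj := mltvp_jqModC_ne_zero K
  have hjq := mltvp_qExpand_ne_zero K q hj
  have hT := mltvp_eeTLS_two_ne_zero K
  have hD2 := dlxv_unitFinLS_ne_zero K 2
  have e1 := mltvpFLS_cube K q
  have e2 := eeTLS_cube K 2 (k := 1) (by norm_num)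
  have e3 : qExpand K q (eeTLS K 2 1) ^ 3 =
      qExpand K q (jqModC K) ^ 2 * qExpand K q (unitFinLS K 2) := by
    rw [← map_pow, e2, map_mul, map_pow]
  have e4 : mltvpFLS K q ^ 3 = jqModC K * unitFinLS K q * (qExpand K q (jqModC K))⁻¹ := by
    rw [← e1]
    field_simp
  rw [mltvpGLS, mltvpULS, mul_pow, mul_pow, inv_pow, e3, e2,
    show (mltvpFLS K q ^ 2) ^ 3 = (mltvpFLS K q ^ 3) ^ 2 by ring, e4]
  field_simp

/-- **`g³ · u = D_q`** -/
theorem mltvpVLS_cube : mltvpVLS K q ^ 3 * mltvpULS K q = unitFinLS K q := by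
  have hG := mltvpGLS_ne_zero K q
  have hD := dlxv_unitFinLS_ne_zero K q
  rw [mltvpVLS, mul_pow, inv_pow, mltvpGLS_cube]
  have hU : mltvpULS K q ≠ 0 :=
    mul_ne_zero (mltvp_qExpand_ne_zero K q (dlxv_unitFinLS_ne_zero K 2))
      (inv_ne_zero (dlxv_unitFinLS_ne_zero K 2))
  field_simp

theorem mltvpULS_ne_zero : mltvpULS K q ≠ 0 :=
  mul_ne_zero (mltvp_qExpand_ne_zero K q (dlxv_unitFinLS_ne_zero K 2))
    (inv_ne_zero (dlxv_unitFinLS_ne_zero K 2))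

theorem mltvpVLS_ne_zero : mltvpVLS K q ≠ 0 :=
  mul_ne_zero (dlxv_unitFinLS_ne_zero K q) (inv_ne_zero (mltvpGLS_ne_zero K q))

variable {K}

theorem lsMapHom_mltvpFLS {S : Type*} [Field S] (φ : K →+* S) :
    lsMapHom φ (mltvpFLS K q) = mltvpFLS S q := by
  rw [mltvpFLS, map_mul, map_inv₀, lsMapHom_qExpand, lsMapHom_eeE4LS, mltvpFLS]

theorem lsMapHom_mltvpGLS {S : Type*} [Field S] (φ : K →+* S) :
    lsMapHom φ (mltvpGLS K q) = mltvpGLS S q := by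
  rw [mltvpGLS, map_mul, map_mul, map_pow, map_inv₀, lsMapHom_qExpand, lsMapHom_eeTLS,
    lsMapHom_mltvpFLS, mltvpGLS]

theorem lsMapHom_mltvpVLS {S : Type*} [Field S] (φ : K →+* S) :
    lsMapHom φ (mltvpVLS K q) = mltvpVLS S q := by
  rw [mltvpVLS, map_mul, map_inv₀, lsMapHom_mltvpGLS, lsMapHom_unitFinLS, mltvpVLS]

theorem lsMapHom_mltvpULS {S : Type*} [Field S] (φ : K →+* S) :
    lsMapHom φ (mltvpULS K q) = mltvpULS S q := by
  rw [mltvpULS, map_mul, map_inv₀, lsMapHom_qExpand, lsMapHom_unitFinLS, mltvpULS]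

end Series

section Field

variable (L : Type*) [Field L] [Algebra ℚ L] (N : ℕ) [NeZero N] (q : ℕ) [hq : Fact q.Prime]

/-- **`F = E₄(z)/E₄(qz) ∈ ℚ(X₀(q))`** -/
theorem mltvpFLS_mem_full :
    haveI : NeZero q := ⟨hq.out.ne_zero⟩
    mltvpFLS ℚ q ∈ modularFunctionFieldFull q := by
  haveI : NeZero q := ⟨hq.out.ne_zero⟩
  rw [mltvpFLS_eq]
  refine mul_mem (mltvpALS_mem_full q) (inv_mem ?_)
  rw [jqModC_rat]
  exact jqd_mem_full q dvd_rfl

/-- `t₂(qz) ∈ ℚ(X₀(2q))` -/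
theorem mltvp_qExpand_eeTLS_mem_full :
    haveI : NeZero q := ⟨hq.out.ne_zero⟩
    qExpand ℚ q (eeTLS ℚ 2 1) ∈ modularFunctionFieldFull (2 * q) := by
  haveI : NeZero q := ⟨hq.out.ne_zero⟩
  haveI : Fact (2 : ℕ).Prime := ⟨Nat.prime_two⟩
  have h1 : eeTLS ℚ 2 1 ∈ modularFunctionFieldFull 2 := eeTLS_mem_full 2 (k := 1) (by norm_num)
  have h2 : qExpandₐ q (eeTLS ℚ 2 1) ∈ (modularFunctionFieldFull 2).map (qExpandₐ q) :=
    ⟨_, h1, rfl⟩
  have h3 := full_degeneracy_map_le (N := 2) q h2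
  rwa [qExpandₐ_apply] at h3

/-- the vertical function over `ℚ` lies in `ℚ(X₀(N))`, `2q ∣ N` -/
theorem mltvpVLS_mem_full (h2q : 2 * q ∣ N) :
    haveI : NeZero q := ⟨hq.out.ne_zero⟩
    mltvpVLS ℚ q ∈ modularFunctionFieldFull N := by
  haveI : NeZero q := ⟨hq.out.ne_zero⟩
  haveI : Fact (2 : ℕ).Prime := ⟨Nat.prime_two⟩
  haveI : NeZero (2 * q) := ⟨Nat.mul_ne_zero two_ne_zero hq.out.ne_zero⟩
  have hqN : q ∣ N := (dvd_mul_left q 2).trans h2q
  have h2N : 2 ∣ N := (dvd_mul_right 2 q).trans h2q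
  unfold mltvpVLS mltvpGLS
  refine mul_mem (unitFinLS_mem_full N hqN) (inv_mem (mul_mem (mul_mem (pow_mem ?_ 2) ?_)
    (inv_mem ?_)))
  · exact full_degeneracy_le hqN (mltvpFLS_mem_full q)
  · exact full_degeneracy_le h2q (mltvp_qExpand_eeTLS_mem_full q)
  · exact full_degeneracy_le h2N (eeTLS_mem_full 2 (k := 1) (by norm_num))

/-- the vertical function lies in `L(X₀(N))` -/
theorem mltvpVLS_mem (h2q : 2 * q ∣ N) :
    haveI : NeZero q := ⟨hq.out.ne_zero⟩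
    mltvpVLS L q ∈ TaF L N := by
  haveI : NeZero q := ⟨hq.out.ne_zero⟩
  have h := coeffEmb_mem_laurentBaseChange L (mltvpVLS_mem_full N q h2q)
  rwa [ta_coeffEmb_eq_lsMapHom, lsMapHom_mltvpVLS] at h

end Field

end Fermat.Agent.MLT
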