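/-
MLT / VertP (helper8), part 3: **the vertical function of multiplicity `4` in `F_{N' q, L}`** for
EVERY prime `q` (in particular `q = 3`, the residue characteristic `p = 3` of DELTA).

`L` a field of characteristic `0`, `q` prime, `2 ∣ N'`, `W : T2iAL L N' q` an Atkin–Lehner datum:
* `mltvpV : ↥(TaF L (N' * q))` with `q`-expansion `mltvpVLS L q`; `mltvpU` (`= w D₂ / D₂`);
  `mltvpV_cube : g³ · u = D_q`;
* `u` is a unit at `v_∞`, at `v_0`, and at every place where the symmetric chart is regular;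
* hence: `mltvpV_val_inf : v_∞(g) = 1`, `mltvpV_val_zero : v_0(g) < 1`, `mltvpV_hor`,
  `mltvpV_ord_zero : 3 · ord_{v_0} g = ord_{v_0} D_q`.
-/
import Mathlib
import Fermat.Agent.Lib.MLT.VertP.Series
import Fermat.Agent.Lib.Delta.NodeX.VertOrd

set_option autoImplicit false
set_option linter.unusedSectionVars false
set_option linter.unusedVariables false
set_option linter.style.haveILetI false
set_option synthInstance.maxHeartbeats 400000

open Polynomial HahnSeries ModularCurve Fermat.Agent.Igusa Fermat.Agent.T1 Fermat.Agent.T2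
  Fermat.Agent.T4 Fermat.Agent.Mazur Fermat.Agent.Delta Fermat.Agent.Eis

noncomputable section

namespace Fermat.Agent.MLT

/-! ### cube roots in a valuation ring -/

section Cube

variable {F : Type*} [Field F] (V : ValuationSubring F)

theorem mltvp_val_eq_one_of_pow {x : F} {n : ℕ} (hn : n ≠ 0) (h : V.valuation (x ^ n) = 1) :
    V.valuation x = 1 := by
  rw [map_pow] at h
  rcases lt_trichotomy (V.valuation x) 1 with h1 | h1 | h1
  · exact absurd h (pow_lt_one₀ zero_le h1 hn).ne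
  · exact h1
  · exact absurd h (one_lt_pow₀ h1 hn).ne'

theorem mltvp_val_lt_one_of_pow {x : F} {n : ℕ} (hn : n ≠ 0) (h : V.valuation (x ^ n) < 1) :
    V.valuation x < 1 := by
  rw [map_pow] at h
  by_contra h1
  rw [not_lt] at h1
  exact absurd h (not_lt.mpr (one_le_pow₀ h1))

end Cube

/-! ### `D_r` is a unit wherever `j` is regular, `r` any prime dividing the level -/

section UnitR

variable {L : Type*} [Field L] [Algebra ℚ L] (N : ℕ) [NeZero N] {r : ℕ} (hr : r.Prime) [NeZero r]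
  (hrN : r ∣ N)

theorem mltvp_modPsiK_coeff_zero :
    (modPsiK r hr L).coeff 0 = Polynomial.C ((r : L) ^ 12) := by
  rw [mzg_modPsiK_coeff, mzg_modPsi_coeff_zero, Polynomial.map_C]
  simp

/-- `Ψ_r(U_r, j) = 0` -/
theorem mltvp_psi_U :
    ((modPsiK r hr L).map ((aeval (taJ N) :
      L[X] →ₐ[L] ↥(TaF L N)) : L[X] →+* ↥(TaF L N))).eval (taUnit N hrN) = 0 :=
  dlxv_eval_taJ N _ _ (modPsiK_eval_left r hr L)

include hr in
/-- `D_r` is a unit wherever `j` is regular -/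
theorem mltvp_D_unit_of_taJ_mem {V : ValuationSubring ↥(TaF L N)}
    (hL : ∀ c : L, algebraMap L ↥(TaF L N) c ∈ V) (h : taJ N ∈ V) :
    V.valuation (dlxvD N hrN) = 1 := by
  have hc := dlxv_natCast_pow_ne_zero L r
  obtain ⟨h1, h2⟩ := dlxv_root V hL _ (modPsiK_monic r hr L) h (mltvp_psi_U (L := L) N hr hrN)
  have h3 := h2 _ hc (mltvp_modPsiK_coeff_zero hr)
  have hD0 := dlxvD_ne_zero (L := L) N hrN
  have hU0 := dlxv_taUnit_ne_zero (L := L) N hrN
  have hmul := dlxvD_mul_taUnit (L := L) N hrN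
  have hc' : algebraMap L ↥(TaF L N) ((r : L) ^ 12) ≠ 0 := (_root_.map_ne_zero _).mpr hc
  rw [t4vp_valuation_eq_one_iff V hD0]
  constructor
  · have : dlxvD (L := L) N hrN =
        algebraMap L ↥(TaF L N) ((r : L) ^ 12) * (taUnit N hrN)⁻¹ := by
      rw [← hmul, mul_assoc, mul_inv_cancel₀ hU0, mul_one]
    rw [this]
    exact V.mul_mem _ _ (hL _) h3
  · have : (dlxvD (L := L) N hrN)⁻¹ =
        algebraMap L ↥(TaF L N) ((r : L) ^ 12)⁻¹ * taUnit N hrN := by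
      rw [map_inv₀, ← hmul, mul_inv, mul_assoc, inv_mul_cancel₀ hU0, mul_one]
    rw [this]
    exact V.mul_mem _ _ (hL _) h1

end UnitR

/-! ### the element -/

section Elt

variable {L : Type*} [Field L] [Algebra ℚ L] {N' q : ℕ} [NeZero N'] [hq : Fact q.Prime]

theorem mltvp_neZero_q : NeZero q := ⟨hq.out.ne_zero⟩

attribute [local instance] mltvp_neZero_q

theorem mltvp_neZero_mul : NeZero (N' * q) := ⟨Nat.mul_ne_zero (NeZero.ne N') hq.out.ne_zero⟩

attribute [local instance] mltvp_neZero_mul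

theorem mltvp_two_mul_dvd (h2 : 2 ∣ N') : 2 * q ∣ N' * q := Nat.mul_dvd_mul_right h2 q

variable (L N' q)

/-- **the vertical function of multiplicity `4`** in `F_{N' q, L}` -/
def mltvpV (h2 : 2 ∣ N') : ↥(TaF L (N' * q)) :=
  ⟨mltvpVLS L q, mltvpVLS_mem L (N' * q) q (mltvp_two_mul_dvd h2)⟩

/-- `D₂` at the level `N' q` -/
def mltvpD2 (h2 : 2 ∣ N') : ↥(TaF L (N' * q)) := dlxvD (N' * q) (h2.mul_right q)

/-- `D₂` at the level `N' q` comes from the level `N'` -/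
theorem mltvpD2_eq_alpha (h2 : 2 ∣ N') :
    mltvpD2 L N' q h2 = heckeAlphaBar L N' q (dlxvD N' h2) := by
  apply Subtype.ext
  rw [coe_heckeAlphaBar]
  rfl

/-- `D₂(qz)` at the level `N' q` -/
def mltvpD2q (h2 : 2 ∣ N') : ↥(TaF L (N' * q)) := heckeBetaBar L N' q (dlxvD N' h2)

theorem coe_mltvpD2q (h2 : 2 ∣ N') :
    ((mltvpD2q L N' q h2 : ↥(TaF L (N' * q))) : LaurentSeries L) =
      qExpand L q (unitFinLS L 2) := by
  rw [mltvpD2q, coe_heckeBetaBar]
  rfl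

theorem mltvpD2_ne_zero (h2 : 2 ∣ N') : mltvpD2 L N' q h2 ≠ 0 :=
  dlxvD_ne_zero (L := L) (N' * q) (h2.mul_right q)

theorem mltvpD2q_ne_zero (h2 : 2 ∣ N') : mltvpD2q L N' q h2 ≠ 0 :=
  (_root_.map_ne_zero (heckeBetaBar L N' q)).mpr (dlxvD_ne_zero (L := L) N' h2)

/-- the correcting unit `u = D₂(qz) / D₂(z)` -/
def mltvpU (h2 : 2 ∣ N') : ↥(TaF L (N' * q)) := mltvpD2q L N' q h2 * (mltvpD2 L N' q h2)⁻¹

theorem coe_mltvpU (h2 : 2 ∣ N') :
    ((mltvpU L N' q h2 : ↥(TaF L (N' * q))) : LaurentSeries L) = mltvpULS L q := by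
  rw [mltvpU, mltvpULS]
  push_cast
  rw [coe_mltvpD2q]
  rfl

/-- **`g³ · u = D_q`** -/
theorem mltvpV_cube (h2 : 2 ∣ N') :
    mltvpV L N' q h2 ^ 3 * mltvpU L N' q h2 = dlxvD (N' * q) (dvd_mul_left q N') := by
  apply Subtype.ext
  push_cast
  rw [coe_mltvpU]
  exact mltvpVLS_cube L q

theorem mltvpV_ne_zero (h2 : 2 ∣ N') : mltvpV L N' q h2 ≠ 0 := by
  intro h
  have h1 := congrArg (fun z : ↥(TaF L (N' * q)) => (z : LaurentSeries L)) h
  exact mltvpVLS_ne_zero L q h1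

theorem mltvpU_ne_zero (h2 : 2 ∣ N') : mltvpU L N' q h2 ≠ 0 :=
  mul_ne_zero (mltvpD2q_ne_zero L N' q h2) (inv_ne_zero (mltvpD2_ne_zero L N' q h2))

end Elt

/-! ### the valuations -/

section Val

variable {L : Type*} [Field L] [Algebra ℚ L] {N' q : ℕ} [NeZero N'] [hq : Fact q.Prime]
  (W : T2iAL L N' q)
  (O : ValuationSubring L) {k : Type*} [Field k]
  (π : ↥O →+* k) [IsDiscreteValuationRing ↥O] (hπ : Function.Surjective π)

attribute [local instance] mltvp_neZero_q mltvp_neZero_mul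

/-- `w D₂ = D₂(qz)` -/
theorem mltvp_w_D2 (h2 : 2 ∣ N') : W.w (mltvpD2 L N' q h2) = mltvpD2q L N' q h2 := by
  rw [mltvpD2_eq_alpha, W.w_alpha, mltvpD2q]

theorem mltvp_w_D2q (h2 : 2 ∣ N') : W.w (mltvpD2q L N' q h2) = mltvpD2 L N' q h2 := by
  rw [← mltvp_w_D2 W h2, W.w_w]

/-- `w u = u⁻¹` -/
theorem mltvp_w_U (h2 : 2 ∣ N') : W.w (mltvpU L N' q h2) = (mltvpU L N' q h2)⁻¹ := by
  rw [mltvpU, map_mul, map_inv₀, mltvp_w_D2 W h2, mltvp_w_D2q W h2, mul_inv, inv_inv]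
  exact mul_comm _ _

/-- `D₂` is a unit at `v_∞` -/
theorem mltvpD2_val_inf (h2 : 2 ∣ N') :
    (taOv O π hπ (N' * q)).valuation (mltvpD2 L N' q h2) = 1 :=
  dlxvD_val_inf O π hπ (N' * q) (h2.mul_right q)

/-- `D₂(qz)` is a unit at `v_∞` -/
theorem mltvpD2q_val_inf (h2 : 2 ∣ N') :
    (taOv O π hπ (N' * q)).valuation (mltvpD2q L N' q h2) = 1 := by
  rw [t4vp_valuation_eq_one_iff _ (mltvpD2q_ne_zero L N' q h2)]
  constructor
  · rw [mltvpD2q, mem_taOv_iff, coe_heckeBetaBar]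
    exact t2i_taGauss_qExpand O π q ((mem_taOv_iff O π hπ N' _).mp (dlxvD_mem_taOv O π hπ N' h2))
  · rw [mltvpD2q, ← map_inv₀, mem_taOv_iff, coe_heckeBetaBar]
    exact t2i_taGauss_qExpand O π q
      ((mem_taOv_iff O π hπ N' _).mp (dlxvD_inv_mem_taOv O π hπ N' h2))

/-- `u` is a unit at `v_∞` -/
theorem mltvpU_val_inf (h2 : 2 ∣ N') :
    (taOv O π hπ (N' * q)).valuation (mltvpU L N' q h2) = 1 := by
  rw [mltvpU, map_mul, map_inv₀, mltvpD2_val_inf O π hπ h2, mltvpD2q_val_inf O π hπ h2, inv_one,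
    mul_one]

/-- `u` is a unit at `v_0` -/
theorem mltvpU_val_zero (h2 : 2 ∣ N') :
    (dliO0 O π hπ W).valuation (mltvpU L N' q h2) = 1 := by
  rw [dlxv_comap_val_eq_one (taOv O π hπ (N' * q))
    (W.w : ↥(TaF L (N' * q)) →+* ↥(TaF L (N' * q))) (mltvpU_ne_zero L N' q h2)]
  show (taOv O π hπ (N' * q)).valuation (W.w (mltvpU L N' q h2)) = 1
  rw [mltvp_w_U W h2, map_inv₀, mltvpU_val_inf O π hπ h2, inv_one]

include W in
/-- `u` is a unit wherever `j` and `j(qz)` are regular -/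
theorem mltvpU_unit_of_mem (h2 : 2 ∣ N') {V : ValuationSubring ↥(TaF L (N' * q))}
    (hL : ∀ c : L, algebraMap L ↥(TaF L (N' * q)) c ∈ V) (h : taJ (N' * q) ∈ V)
    (h' : taGen (N' * q) (dvd_mul_left q N') ∈ V) :
    V.valuation (mltvpU L N' q h2) = 1 := by
  have h1 : V.valuation (mltvpD2 L N' q h2) = 1 :=
    mltvp_D_unit_of_taJ_mem (N' * q) Nat.prime_two (h2.mul_right q) hL h
  have hL' : ∀ c : L, algebraMap L ↥(TaF L (N' * q)) c ∈
      V.comap (W.w : ↥(TaF L (N' * q)) →+* ↥(TaF L (N' * q))) := by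
    intro c
    show W.w (algebraMap L ↥(TaF L (N' * q)) c) ∈ V
    rw [W.w.commutes]
    exact hL c
  have hj' : taJ (N' * q) ∈ V.comap (W.w : ↥(TaF L (N' * q)) →+* ↥(TaF L (N' * q))) := by
    show W.w (taJ (N' * q)) ∈ V
    rw [dlxv_w_taJ]
    exact h'
  have h2' : (V.comap (W.w : ↥(TaF L (N' * q)) →+* ↥(TaF L (N' * q)))).valuation
      (mltvpD2 L N' q h2) = 1 :=
    mltvp_D_unit_of_taJ_mem (N' * q) Nat.prime_two (h2.mul_right q) hL' hj'
  rw [dlxv_comap_val_eq_one V (W.w : ↥(TaF L (N' * q)) →+* ↥(TaF L (N' * q)))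
    (mltvpD2_ne_zero L N' q h2)] at h2'
  have h3 : V.valuation (mltvpD2q L N' q h2) = 1 := by
    rw [← mltvp_w_D2 W h2]
    exact h2'
  rw [mltvpU, map_mul, map_inv₀, h1, h3, inv_one, mul_one]

include W in
/-- `j(qz)` is regular wherever `j` is -/
theorem mltvp_taGen_mem {V : ValuationSubring ↥(TaF L (N' * q))}
    (hL : ∀ c : L, algebraMap L ↥(TaF L (N' * q)) c ∈ V) (h : taJ (N' * q) ∈ V) :
    taGen (N' * q) (dvd_mul_left q N') ∈ V := by
  -- apply `dlxv_taJ_mem` to `V.comap w`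
  have hL' : ∀ c : L, algebraMap L ↥(TaF L (N' * q)) c ∈
      V.comap (W.w : ↥(TaF L (N' * q)) →+* ↥(TaF L (N' * q))) := by
    intro c
    show W.w (algebraMap L ↥(TaF L (N' * q)) c) ∈ V
    rw [W.w.commutes]
    exact hL c
  have hg : taGen (N' * q) (dvd_mul_left q N') ∈
      V.comap (W.w : ↥(TaF L (N' * q)) →+* ↥(TaF L (N' * q))) := by
    show W.w (taGen (N' * q) (dvd_mul_left q N')) ∈ V
    rw [dlxv_w_taGen]
    exact h
  have := dlxv_taJ_mem hL' hg
  have h1 : W.w (taJ (N' * q)) ∈ V := this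
  rwa [dlxv_w_taJ] at h1

/-- the valuation of `g³` -/
theorem mltvpV_val_cube (h2 : 2 ∣ N') (V : ValuationSubring ↥(TaF L (N' * q)))
    (hU : V.valuation (mltvpU L N' q h2) = 1) :
    V.valuation (mltvpV L N' q h2 ^ 3) =
      V.valuation (dlxvD (N' * q) (dvd_mul_left q N')) := by
  rw [← mltvpV_cube L N' q h2, map_mul, hU, mul_one]

/-- **`v_∞(g) = 1`** -/
theorem mltvpV_val_inf (h2 : 2 ∣ N') :
    (taOv O π hπ (N' * q)).valuation (mltvpV L N' q h2) = 1 := by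
  apply mltvp_val_eq_one_of_pow _ (n := 3) (by norm_num)
  rw [mltvpV_val_cube h2 _ (mltvpU_val_inf O π hπ h2)]
  exact dlxvD_val_inf O π hπ (N' * q) (dvd_mul_left q N')

/-- **`v_0(g) < 1`** (`q = 0` in the residue field) -/
theorem mltvpV_val_zero (h2 : 2 ∣ N') (hqk : (q : k) = 0) :
    (dliO0 O π hπ W).valuation (mltvpV L N' q h2) < 1 := by
  apply mltvp_val_lt_one_of_pow _ (n := 3) (by norm_num)
  rw [mltvpV_val_cube h2 _ (mltvpU_val_zero W O π hπ h2)]
  exact dlxvD_val_zero W O π hπ hqk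

/-- **`g` is a unit at every place of `F / L` at which the symmetric chart is regular** -/
theorem mltvpV_hor (h2 : 2 ∣ N') {Q : ℕ} (hQ : 2 ≤ Q)
    (V : ValuationSubring ↥(TaF L (N' * q))) (hV : V ∈ t4vpHor L (dlxvX W Q)) :
    V.valuation (mltvpV L N' q h2) = 1 := by
  have hL : ∀ c : L, algebraMap L ↥(TaF L (N' * q)) c ∈ V := t4vp_algebraMap_mem_hor hV
  have hj : taJ (N' * q) ∈ V := by
    obtain ⟨v, rfl, hx⟩ := hV
    exact dlxv_taJ_mem_of_chart W hQ hL hx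
  have hjq := mltvp_taGen_mem W hL hj
  apply mltvp_val_eq_one_of_pow _ (n := 3) (by norm_num)
  rw [mltvpV_val_cube h2 _ (mltvpU_unit_of_mem W h2 hL hj hjq)]
  exact dlxv_hor W hQ V hV

/-- **`3 · ord_{v_0} g = ord_{v_0} D_q`** -/
theorem mltvpV_ord_zero (h2 : 2 ∣ N')
    [IsDiscreteValuationRing ↥(dliO0 O π hπ W)] :
    3 * dlOrd (dliO0 O π hπ W) (mltvpV L N' q h2) =
      dlOrd (dliO0 O π hπ W) (dlxvD (N' * q) (dvd_mul_left q N')) := by
  have hg0 := mltvpV_ne_zero L N' q h2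
  have hU0 := mltvpU_ne_zero L N' q h2
  rw [← mltvpV_cube L N' q h2, dlOrd_mul _ (pow_ne_zero 3 hg0) hU0, dlOrd_pow,
    (dl_valuation_eq_one_iff _ hU0).mp (mltvpU_val_zero W O π hπ h2), add_zero]
  norm_num

end Val

end Fermat.Agent.MLT
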