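/-
MLT / VertP (helper8), part 4: **the vertical function of multiplicity `4` at the level `H`**, for
EVERY residue characteristic `𝔓.p` (in particular `𝔓.p = 3`, which DELTA at `p = 3` needs: the
classical unit `Δ(z)/Δ(pz)` has multiplicity `12 (p - 1)`, divisible by `3`).

`𝔓 | p`, `H ≤ I_𝔓` of finite index, `2 ∣ N'`, `p ∤ N'`:
* `mltvpVertD 𝔓 H N' h2 : ↥(tbLevF 𝔓 (N' * p) H)`, `mltvpVertU` (the correcting unit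
  `D₂(pz)/D₂(z)`), `mltvpVertD_cube : g³ · u = Δ(z)/Δ(pz)`;
* `mltvpVertD_hor`, `_val_inf`, `_val_zero`, `_phi`, `_ord_zero_of_unif : ord_{v_0} g = 4 e`;
* `mltvpVert : DlqfVert (dlxChart1 …)` (the analogue of `dlqVert` with `dlxVertD` replaced);
* `mltvp_four_not_dvd : ¬ 3 ∣ 4 (3 - 1)`.
-/
import Mathlib
import Fermat.Agent.Lib.MLT.VertP.Unit
import Fermat.Agent.Lib.Delta.Core.Main

set_option autoImplicit false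
set_option linter.unusedSectionVars false
set_option linter.unusedVariables false
set_option linter.style.haveILetI false
set_option synthInstance.maxHeartbeats 400000
set_option maxHeartbeats 1000000

open HahnSeries ModularCurve Fermat.Agent.Igusa Fermat.Agent.T1 Fermat.Agent.T2
  Fermat.Agent.T4 Fermat.Agent.TW Fermat.Agent.Delta Fermat.Agent.S33 Fermat.Agent.S33Q

noncomputable section

namespace Fermat.Agent.MLT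

local notation "Qb" => AlgebraicClosure ℚ

attribute [local instance] t2i_dvr t2i_isAlgClosed t2i_charP t2i_fact
attribute [local instance 10000] dliAlgF dliAlgE

section LevelH

variable (𝔓 : FFPlace) (H : Subgroup 𝔓.I) [H.FiniteIndex] (N' : ℕ) [NeZero N'] (h : ¬ 𝔓.p ∣ N')
  (h2 : 2 ∣ N')

/-- **the vertical function of multiplicity `4`** of `X₀(N' p)` over `L_H` -/
def mltvpVertD : ↥(tbLevF 𝔓 (N' * 𝔓.p) H) :=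
  mltvpV (↥(tbFix 𝔓 H)) N' 𝔓.p h2

/-- the correcting unit `D₂(pz) / D₂(z)` -/
def mltvpVertU : ↥(tbLevF 𝔓 (N' * 𝔓.p) H) :=
  mltvpU (↥(tbFix 𝔓 H)) N' 𝔓.p h2

theorem mltvpVertD_cube :
    mltvpVertD 𝔓 H N' h2 ^ 3 * mltvpVertU 𝔓 H N' h2 = dlxVertD 𝔓 H N' :=
  mltvpV_cube (↥(tbFix 𝔓 H)) N' 𝔓.p h2

theorem mltvpVertD_ne_zero : mltvpVertD 𝔓 H N' h2 ≠ 0 :=
  mltvpV_ne_zero (↥(tbFix 𝔓 H)) N' 𝔓.p h2

theorem mltvpVertU_ne_zero : mltvpVertU 𝔓 H N' h2 ≠ 0 :=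
  mltvpU_ne_zero (↥(tbFix 𝔓 H)) N' 𝔓.p h2

theorem coe_mltvpVertD :
    ((mltvpVertD 𝔓 H N' h2 : ↥(tbLevF 𝔓 (N' * 𝔓.p) H)) : LaurentSeries ↥(tbFix 𝔓 H)) =
      mltvpVLS ↥(tbFix 𝔓 H) 𝔓.p := rfl

theorem coe_mltvpVertU :
    ((mltvpVertU 𝔓 H N' h2 : ↥(tbLevF 𝔓 (N' * 𝔓.p) H)) : LaurentSeries ↥(tbFix 𝔓 H)) =
      mltvpULS ↥(tbFix 𝔓 H) 𝔓.p :=
  coe_mltvpU (↥(tbFix 𝔓 H)) N' 𝔓.p h2

/-- `g` is a unit at every horizontal place of the chart -/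
theorem mltvpVertD_hor {Q : ℕ} (hQ : 2 ≤ Q) (V : ValuationSubring ↥(tbLevF 𝔓 (N' * 𝔓.p) H))
    (hV : V ∈ t4vpHor ↥(tbFix 𝔓 H) (t2gaX 𝔓 H N' h Q)) :
    V.valuation (mltvpVertD 𝔓 H N' h2) = 1 :=
  mltvpV_hor (t2iALFix 𝔓 H N' h) h2 hQ V hV

/-- `v_∞(g) = 1` -/
theorem mltvpVertD_val_inf :
    (taOv (tbFixO 𝔓 H) (tbFixRes 𝔓 H) (tbFixRes_surjective 𝔓 H) (N' * 𝔓.p)).valuation
      (mltvpVertD 𝔓 H N' h2) = 1 :=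
  mltvpV_val_inf _ _ _ h2

/-- `v_0(g) < 1` -/
theorem mltvpVertD_val_zero :
    (dliO0 (tbFixO 𝔓 H) (tbFixRes 𝔓 H) (tbFixRes_surjective 𝔓 H)
      (t2iALFix 𝔓 H N' h)).valuation (mltvpVertD 𝔓 H N' h2) < 1 :=
  mltvpV_val_zero (t2iALFix 𝔓 H N' h) _ _ _ h2
    (CharP.cast_eq_zero (IsLocalRing.ResidueField ↥𝔓.P) 𝔓.p)

/-- the `q`-expansion over `ℚ̄` -/
theorem mltvpVertD_phi :
    ((tbPhiF 𝔓 (N' * 𝔓.p) H (mltvpVertD 𝔓 H N' h2) :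
      ↥(modularFunctionFieldBar (N' * 𝔓.p))) : LaurentSeries Qb) = mltvpVLS Qb 𝔓.p := by
  rw [coe_tbPhiF, coe_mltvpVertD]
  exact lsMapHom_mltvpVLS 𝔓.p (algebraMap ↥(tbFix 𝔓 H) Qb)

theorem mltvpVertU_phi :
    ((tbPhiF 𝔓 (N' * 𝔓.p) H (mltvpVertU 𝔓 H N' h2) :
      ↥(modularFunctionFieldBar (N' * 𝔓.p))) : LaurentSeries Qb) = mltvpULS Qb 𝔓.p := by
  rw [coe_tbPhiF, coe_mltvpVertU]
  exact lsMapHom_mltvpULS 𝔓.p (algebraMap ↥(tbFix 𝔓 H) Qb)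

/-- `ord_{v_0} g = 4 e` if `p = η ϖ ^ e`, `η` a unit and `ϖ` a uniformiser of `O_H` -/
theorem mltvpVertD_ord_zero_of_unif
    [IsDiscreteValuationRing ↥(dliO0 (tbFixO 𝔓 H) (tbFixRes 𝔓 H) (tbFixRes_surjective 𝔓 H)
      (t2iALFix 𝔓 H N' h))]
    {ϖ : ↥(tbFixO 𝔓 H)} (hϖ : Irreducible ϖ) {η : ↥(tbFixO 𝔓 H)} (hη : IsUnit η) {e : ℕ}
    (hpe : (𝔓.p : ↥(tbFix 𝔓 H)) = (η : ↥(tbFix 𝔓 H)) * (ϖ : ↥(tbFix 𝔓 H)) ^ e) :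
    dlOrd (dliO0 (tbFixO 𝔓 H) (tbFixRes 𝔓 H) (tbFixRes_surjective 𝔓 H) (t2iALFix 𝔓 H N' h))
      (mltvpVertD 𝔓 H N' h2) = 4 * (e : ℤ) := by
  have h1 := mltvpV_ord_zero (t2iALFix 𝔓 H N' h) (tbFixO 𝔓 H) (tbFixRes 𝔓 H)
    (tbFixRes_surjective 𝔓 H) h2
  have h3 := dlxVertD_ord_zero_of_unif 𝔓 H N' h hϖ hη hpe
  have h4 : dlOrd (dliO0 (tbFixO 𝔓 H) (tbFixRes 𝔓 H) (tbFixRes_surjective 𝔓 H) (t2iALFix 𝔓 H N' h))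
      (dlxvD (L := ↥(tbFix 𝔓 H)) (N' * 𝔓.p) (dvd_mul_left 𝔓.p N')) = 12 * (e : ℤ) := h3
  rw [h4] at h1
  have h5 : dlOrd (dliO0 (tbFixO 𝔓 H) (tbFixRes 𝔓 H) (tbFixRes_surjective 𝔓 H) (t2iALFix 𝔓 H N' h))
      (mltvpV (↥(tbFix 𝔓 H)) N' 𝔓.p h2) = 4 * (e : ℤ) := by omega
  exact h5

end LevelH

section Vert

variable (𝔓 : FFPlace) (H : Subgroup 𝔓.I) [H.FiniteIndex] {ϖ : ↥(tbFixO 𝔓 H)}
  (hϖ : Irreducible ϖ) (N' : ℕ) [NeZero N'] (h : ¬ 𝔓.p ∣ N') (h49 : 4 ∣ N' ∨ 9 ∣ N') {n : ℕ}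
  (su : T2Setup (t2iBase2Fix 𝔓 H N' h) (Fin n))
  (hx : su.x = t2gaX 𝔓 H N' h (𝔓.p ^ 2)) (hxb : su.xb = (s33qXi 𝔓 N', s33qXi 𝔓 N'))
  (h2 : 2 ∣ N')

include hx in
/-- `g` is a unit at all horizontal valuation rings of chart 1 -/
theorem mltvp_vert_hor1 (V : ValuationSubring ↥(tbLevF 𝔓 (N' * 𝔓.p) H))
    (hV : V ∈ t4vpHor ↥(tbFix 𝔓 H) (dlxChart1 𝔓 H hϖ N' h h49 su hx hxb).x) :
    V.valuation (mltvpVertD 𝔓 H N' h2) = 1 := by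
  have hQ : 2 ≤ 𝔓.p ^ 2 := by
    have := 𝔓.hp.two_le
    nlinarith
  rw [dlxChart1_x, hx] at hV
  exact mltvpVertD_hor 𝔓 H N' h h2 hQ V hV

/-- (FIN-X), (HENS) and the vertical function of multiplicity `4` for chart 1 at the level `H` -/
def mltvpVert : DlqfVert (dlxChart1 𝔓 H hϖ N' h h49 su hx hxb) where
  hfin := dlxChart1_finAt 𝔓 H hϖ N' h h49 su hx hxb
  hens := dlx_hensH 𝔓 H hϖ N'
  D := mltvpVertD 𝔓 H N' h2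
  hD0 := mltvpVertD_ne_zero 𝔓 H N' h2
  hDhor := mltvp_vert_hor1 𝔓 H hϖ N' h h49 su hx hxb h2
  hD1 := mltvpVertD_val_inf 𝔓 H N' h2
  hD2 := mltvpVertD_val_zero 𝔓 H N' h h2

@[simp] theorem mltvpVert_D :
    (mltvpVert 𝔓 H hϖ N' h h49 su hx hxb h2).D = mltvpVertD 𝔓 H N' h2 := rfl

end Vert

/-- the multiplicity `4 (p - 1)` at the tame level is prime to `p` for every odd prime `p`
(for `p = 3`: `8`) -/
theorem mltvp_four_not_dvd {p : ℕ} (hp : p.Prime) (hp2 : p ≠ 2) :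
    ¬ (p : ℤ) ∣ 4 * ((p - 1 : ℕ) : ℤ) := by
  intro hdvd
  have h1 : p ∣ 4 * (p - 1) := by exact_mod_cast hdvd
  rcases (Nat.Prime.dvd_mul hp).mp h1 with h4 | h4
  · have h5 : p ∣ 2 ^ 2 := by norm_num; exact h4
    have := (Nat.prime_dvd_prime_iff_eq hp Nat.prime_two).mp (hp.dvd_of_dvd_pow h5)
    exact hp2 this
  · have := Nat.le_of_dvd (by have := hp.two_le; omega) h4
    have := hp.two_le
    omega

end Fermat.Agent.MLT
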