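/-
MLT / VertP (helper8), part 5: **the core computation at the nodes with the vertical function of
multiplicity `4`** (fork of helper2's `dlq_nodes`, `Delta/Core/Main.lean`, with `dlqVert` replaced by
`mltvpVert`).

* `mltvpVertD_ord_inf`, `mltvpVertD_ord_zero_H1`, `mltvpVertD_delta_H1 : δ = 4 (p − 1)` at the tame
  level;
* `mltvp_nodes` : ONE `γ` with `p ∣ slope_s(zx) · 4 (p − 1) − slope_s(g) · γ` at all pairs of nodes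
  with the same first branch.
-/
import Mathlib
import Fermat.Agent.Lib.MLT.VertP.Level
import Fermat.Agent.Lib.Delta.Core.Main

set_option autoImplicit false
set_option linter.unusedSectionVars false
set_option linter.unusedVariables false
set_option linter.style.haveILetI false
set_option synthInstance.maxHeartbeats 400000
set_option maxHeartbeats 1000000

open HahnSeries ModularCurve Fermat.Agent.T1 Fermat.Agent.T2 Fermat.Agent.T4 Fermat.Agent.TW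
  Fermat.Agent.S05Lib Fermat.Agent.S24Lib IntermediateField AlgebraicCurve Fermat.Agent.Curve Module
  Fermat.Agent.S33 Fermat.Agent.S33Q Fermat.Agent.Delta Fermat.Agent.Igusa

noncomputable section

namespace Fermat.Agent.MLT

local notation "Qb" => AlgebraicClosure ℚ

attribute [local instance] t2i_dvr t2i_isAlgClosed t2i_charP t2i_fact
attribute [local instance 10000] dliAlgF dliAlgE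

section Ord

variable (𝔓 : FFPlace) (H : Subgroup 𝔓.I) [H.FiniteIndex] (N' : ℕ) [NeZero N'] (h : ¬ 𝔓.p ∣ N')
  (h2 : 2 ∣ N')

/-- **`ord_{v_∞} g = 0`** at the level `H` -/
theorem mltvpVertD_ord_inf
    [IsDiscreteValuationRing ↥(taOv (tbFixO 𝔓 H) (tbFixRes 𝔓 H) (tbFixRes_surjective 𝔓 H)
      (N' * 𝔓.p))] :
    dlOrd (taOv (tbFixO 𝔓 H) (tbFixRes 𝔓 H) (tbFixRes_surjective 𝔓 H) (N' * 𝔓.p))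
      (mltvpVertD 𝔓 H N' h2) = 0 :=
  (dl_valuation_eq_one_iff _ (mltvpVertD_ne_zero 𝔓 H N' h2)).mp (mltvpVertD_val_inf 𝔓 H N' h2)

end Ord

section Tame

variable (𝔓 : FFPlace) (N' : ℕ) [NeZero N'] (h : ¬ 𝔓.p ∣ N') (h2 : 2 ∣ N')

/-- **`ord_{v_0} g = 4 (p - 1)`** at the tame level -/
theorem mltvpVertD_ord_zero_H1
    [IsDiscreteValuationRing ↥(dliO0 (tbFixO 𝔓 (dliH1 𝔓)) (tbFixRes 𝔓 (dliH1 𝔓))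
      (tbFixRes_surjective 𝔓 (dliH1 𝔓)) (t2iALFix 𝔓 (dliH1 𝔓) N' h))] :
    dlOrd (dliO0 (tbFixO 𝔓 (dliH1 𝔓)) (tbFixRes 𝔓 (dliH1 𝔓)) (tbFixRes_surjective 𝔓 (dliH1 𝔓))
      (t2iALFix 𝔓 (dliH1 𝔓) N' h)) (mltvpVertD 𝔓 (dliH1 𝔓) N' h2) = 4 * ((𝔓.p - 1 : ℕ) : ℤ) :=
  mltvpVertD_ord_zero_of_unif 𝔓 (dliH1 𝔓) N' h h2 (dliPi1_irreducible 𝔓) (dliEta_isUnit 𝔓)
    (dli_p_eq 𝔓)

/-- **`δ = ord_{v_0} g − ord_{v_∞} g = 4 (p - 1)`** at the tame level -/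
theorem mltvpVertD_delta_H1
    [IsDiscreteValuationRing ↥(dliO0 (tbFixO 𝔓 (dliH1 𝔓)) (tbFixRes 𝔓 (dliH1 𝔓))
      (tbFixRes_surjective 𝔓 (dliH1 𝔓)) (t2iALFix 𝔓 (dliH1 𝔓) N' h))]
    [IsDiscreteValuationRing ↥(taOv (tbFixO 𝔓 (dliH1 𝔓)) (tbFixRes 𝔓 (dliH1 𝔓))
      (tbFixRes_surjective 𝔓 (dliH1 𝔓)) (N' * 𝔓.p))] :
    dlOrd (dliO0 (tbFixO 𝔓 (dliH1 𝔓)) (tbFixRes 𝔓 (dliH1 𝔓)) (tbFixRes_surjective 𝔓 (dliH1 𝔓))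
      (t2iALFix 𝔓 (dliH1 𝔓) N' h)) (mltvpVertD 𝔓 (dliH1 𝔓) N' h2) -
    dlOrd (taOv (tbFixO 𝔓 (dliH1 𝔓)) (tbFixRes 𝔓 (dliH1 𝔓)) (tbFixRes_surjective 𝔓 (dliH1 𝔓))
      (N' * 𝔓.p)) (mltvpVertD 𝔓 (dliH1 𝔓) N' h2) = 4 * ((𝔓.p - 1 : ℕ) : ℤ) := by
  rw [mltvpVertD_ord_zero_H1, mltvpVertD_ord_inf, sub_zero]

end Tame

section Nodes

variable (𝔓 : FFPlace) (N' : ℕ) [NeZero N'] (h : ¬ 𝔓.p ∣ N') (h49 : 4 ∣ N' ∨ 9 ∣ N')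
  (h2 : 2 ∣ N')
  {H : Subgroup 𝔓.I} [H.FiniteIndex] (hle : H ≤ dliH1 𝔓)
  {ϖ : ↥(tbFixO 𝔓 H)} (hϖ : Irreducible ϖ) {n₁ n : ℕ}
  (su₁ : T2Setup (t2iBase2Fix 𝔓 (dliH1 𝔓) N' h) (Fin n₁))
  (hx₁ : su₁.x = t2gaX 𝔓 (dliH1 𝔓) N' h (𝔓.p ^ 2))
  (hxb₁ : su₁.xb = (s33qXi 𝔓 N', s33qXi 𝔓 N'))
  (su : T2Setup (t2iBase2Fix 𝔓 H N' h) (Fin n))
  (hx : su.x = t2gaX 𝔓 H N' h (𝔓.p ^ 2)) (hxb : su.xb = (s33qXi 𝔓 N', s33qXi 𝔓 N'))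
  {F'₁ F'₂ : Type} [Field F'₁] [Field F'₂]
  [Algebra ↥(tbLevF 𝔓 (N' * 𝔓.p) (dliH1 𝔓)) F'₁] [Algebra ↥(tbFix 𝔓 (dliH1 𝔓)) F'₁]
  [IsScalarTower ↥(tbFix 𝔓 (dliH1 𝔓)) ↥(tbLevF 𝔓 (N' * 𝔓.p) (dliH1 𝔓)) F'₁]
  [Algebra ↥(tbLevF 𝔓 (N' * 𝔓.p) H) F'₂] [Algebra ↥(tbFix 𝔓 H) F'₂]
  [IsScalarTower ↥(tbFix 𝔓 H) ↥(tbLevF 𝔓 (N' * 𝔓.p) H) F'₂]
  (Y₁ : DlyCover 𝔓.p ↥(tbLevF 𝔓 (N' * 𝔓.p) (dliH1 𝔓)) F'₁)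
  (Y₂ : DlyCover 𝔓.p ↥(tbLevF 𝔓 (N' * 𝔓.p) H) F'₂)
  (hϖ₁ : Y₁.ϖ = algebraMap ↥(tbFix 𝔓 (dliH1 𝔓)) ↥(tbLevF 𝔓 (N' * 𝔓.p) (dliH1 𝔓))
    ((dliPi1 𝔓 : ↥(tbFixO 𝔓 (dliH1 𝔓))) : ↥(tbFix 𝔓 (dliH1 𝔓))))
  (hη₁ : Y₁.η = algebraMap ↥(tbFix 𝔓 (dliH1 𝔓)) ↥(tbLevF 𝔓 (N' * 𝔓.p) (dliH1 𝔓))
    ((dliEta 𝔓 : ↥(tbFixO 𝔓 (dliH1 𝔓))) : ↥(tbFix 𝔓 (dliH1 𝔓))))
  (ιF' : F'₁ →+* F'₂)
  (hsq : ∀ f : ↥(tbLevF 𝔓 (N' * 𝔓.p) (dliH1 𝔓)),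
    ιF' (algebraMap ↥(tbLevF 𝔓 (N' * 𝔓.p) (dliH1 𝔓)) F'₁ f) =
      algebraMap ↥(tbLevF 𝔓 (N' * 𝔓.p) H) F'₂ (dlqlF 𝔓 hle (N' * 𝔓.p) f))
  (hy : ιF' Y₁.y = Y₂.y) (hϖ₂ : Y₂.ϖ = dlqlF 𝔓 hle (N' * 𝔓.p) Y₁.ϖ)
  {x : JZero (N' * 𝔓.p)} (hK : DliKummer 𝔓 N' h x Y₁.Z) (hodd : 𝔓.p ≠ 2)

include hϖ₁ hη₁ hsq hy hϖ₂ hK hodd in
/-- **the core computation at the nodes of the modular charts, with the vertical function of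
multiplicity `4`**: ONE `γ` with `p ∣ slope_s(zx) · 4 (p − 1) − slope_s(g) · γ` at all pairs of
nodes with the same first branch -/
theorem mltvp_nodes {zx : ↥(tbLevF 𝔓 (N' * 𝔓.p) H)} (hzx : zx ≠ 0) {r : F'₂} (hr : r ≠ 0)
    {z' : F'₁} (hz' : z' ≠ 0)
    (hrel : ιF' z' = algebraMap ↥(tbLevF 𝔓 (N' * 𝔓.p) H) F'₂ zx * r ^ 𝔓.p)
    (hhor : ∀ (V : ValuationSubring F'₁) (hV : IsDiscreteValuationRing V),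
      (∀ c : ↥(tbFix 𝔓 (dliH1 𝔓)), algebraMap ↥(tbFix 𝔓 (dliH1 𝔓)) F'₁ c ∈ V) →
        (𝔓.p : ℤ) ∣ @dlOrd _ _ V hV z')
    (e : ↥(tbLevF 𝔓 (N' * 𝔓.p) (dliH1 𝔓))) (hh : F'₁)
    (hei : (𝔓.p : ℤ) ∣
      (haveI := (dlxChart1 𝔓 (dliH1 𝔓) (dliPi1_irreducible 𝔓) N' h h49 su₁ hx₁ hxb₁).P.dvr _
        (dlxChart1 𝔓 (dliH1 𝔓) (dliPi1_irreducible 𝔓) N' h h49 su₁ hx₁ hxb₁).V₁_mem;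
        dlOrd (dlxChart1 𝔓 (dliH1 𝔓) (dliPi1_irreducible 𝔓) N' h h49 su₁ hx₁ hxb₁).V₁ e))
    (hez : (𝔓.p : ℤ) ∣
      (haveI := (dlxChart1 𝔓 (dliH1 𝔓) (dliPi1_irreducible 𝔓) N' h h49 su₁ hx₁ hxb₁).P.dvr _
        (dlxChart1 𝔓 (dliH1 𝔓) (dliPi1_irreducible 𝔓) N' h h49 su₁ hx₁ hxb₁).V₂_mem;
        dlOrd (dlxChart1 𝔓 (dliH1 𝔓) (dliPi1_irreducible 𝔓) N' h h49 su₁ hx₁ hxb₁).V₂ e))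
    (hτz : Y₁.τ z' = algebraMap ↥(tbLevF 𝔓 (N' * 𝔓.p) (dliH1 𝔓)) F'₁ e * hh ^ 𝔓.p * z') :
    ∃ γ : ℤ, ∀ (P : Place (IsLocalRing.ResidueField ↥𝔓.P) ↥(tbBarF 𝔓 N'))
      (Q Q' : Place (IsLocalRing.ResidueField ↥𝔓.P) ↥(tbBarF 𝔓 N'))
      (hs : (P, Q) ∈ (dlxChart1 𝔓 (dliH1 𝔓) (dliPi1_irreducible 𝔓) N' h h49 su₁ hx₁ hxb₁).G.nodes)
      (hs' : (P, Q') ∈ (dlxChart1 𝔓 H hϖ N' h h49 su hx hxb).G.nodes),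
      (𝔓.p : ℤ) ∣ ((mltvpVert 𝔓 H hϖ N' h h49 su hx hxb h2).cross hs').slope zx *
          (4 * ((𝔓.p - 1 : ℕ) : ℤ)) -
        ((mltvpVert 𝔓 (dliH1 𝔓) (dliPi1_irreducible 𝔓) N' h h49 su₁ hx₁ hxb₁ h2).cross hs).slope
          (mltvpVertD 𝔓 (dliH1 𝔓) N' h2) * γ := by
  set C₁ := dlxChart1 𝔓 (dliH1 𝔓) (dliPi1_irreducible 𝔓) N' h h49 su₁ hx₁ hxb₁ with hC₁
  set T₁ := mltvpVert 𝔓 (dliH1 𝔓) (dliPi1_irreducible 𝔓) N' h h49 su₁ hx₁ hxb₁ h2 with hT₁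
  set T := mltvpVert 𝔓 H hϖ N' h h49 su hx hxb h2 with hT
  have hnf : ∀ (s : Place (IsLocalRing.ResidueField ↥𝔓.P) ↥(tbBarF 𝔓 N') ×
      Place (IsLocalRing.ResidueField ↥𝔓.P) ↥(tbBarF 𝔓 N')) (hs : s ∈ C₁.G.nodes),
      ∃ w : ↥(tbLevF 𝔓 (N' * 𝔓.p) (dliH1 𝔓)), w ≠ 0 ∧
        ∃ b ∈ C₁.A₁ s.1 (C₁.node_fin₁ hs), Y₁.Z = w ^ 𝔓.p * (1 + Y₁.ϖ ^ 𝔓.p * b) := by
    intro s hs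
    obtain ⟨W, hW, b, hb, hZ, -, -⟩ := dli_node_normal_form 𝔓 N' h C₁ hs (T₁.hfin _ _) T₁.hens
      T₁.D T₁.hD0 T₁.hDhor T₁.hD1 T₁.hD2 hodd hK
    refine ⟨W, hW, b, hb, ?_⟩
    rw [hZ, hϖ₁]
    rfl
  obtain ⟨γ, hγ⟩ := dlqf_family
    (dlxLevHom1 𝔓 hle (dliPi1_irreducible 𝔓) hϖ N' h h49 su₁ hx₁ hxb₁ su hx hxb) T₁ T Y₁ Y₂
    (dliEta 𝔓) hϖ₁ hη₁ (dli_res_eta_ne_zero 𝔓) ιF' hsq hy hϖ₂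
    (dlxh_dltHens 𝔓 (dliH1 𝔓) F'₁) (dlxh_dltHens 𝔓 H F'₂) hnf hzx hr hz' hrel hhor e hh hei hez hτz
  refine ⟨γ, fun P Q Q' hs hs' => ?_⟩
  have h1 := hγ P Q Q' hs hs'
  have hδ : ((haveI := C₁.P.dvr _ C₁.V₂_mem; dlOrd C₁.V₂ T₁.D) -
      (haveI := C₁.P.dvr _ C₁.V₁_mem; dlOrd C₁.V₁ T₁.D)) = 4 * ((𝔓.p - 1 : ℕ) : ℤ) :=
    @mltvpVertD_delta_H1 𝔓 N' _ h h2 (C₁.P.dvr _ C₁.V₂_mem) (C₁.P.dvr _ C₁.V₁_mem)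
  rw [hδ] at h1
  exact h1

end Nodes

end Fermat.Agent.MLT
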