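/-
MLT / VertP (helper8), part 6: **from the node relations to `DlsEis`, with the vertical function of
multiplicity `4`** (fork of `Delta/Core/Cases.lean`, `dlqc_eis` / `dlqc_eis_of_nodes`, every odd `p`).

* `dlqlF_mltvpVertD` : the change of level maps `g` to `g`;
* `mltvp_vert_free1` : the slopes of `Φ g` vanish at the non-cuspidal free places;
* `mltvp_eis`, **`mltvp_eis_of_nodes`** : the conclusion of `mltvp_nodes` gives `DlsEis 𝔓 N' h f Y` for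
  `f = Φ g` (`δ = 4 (p − 1)`, prime to `p` for every odd `p`).
-/
import Mathlib
import Fermat.Agent.Lib.MLT.VertP.Nodes
import Fermat.Agent.Lib.Delta.Core.Cases

set_option autoImplicit false
set_option linter.unusedSectionVars false
set_option linter.unusedVariables false
set_option linter.style.haveILetI false
set_option synthInstance.maxHeartbeats 400000
set_option maxHeartbeats 1000000

open HahnSeries ModularCurve Fermat.Agent.T1 Fermat.Agent.T2 Fermat.Agent.T4 Fermat.Agent.TW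
  Fermat.Agent.S05Lib Fermat.Agent.S24Lib AlgebraicCurve Fermat.Agent.Curve
  Fermat.Agent.S33 Fermat.Agent.S33Q Fermat.Agent.Delta Fermat.Agent.Igusa

noncomputable section

namespace Fermat.Agent.MLT

local notation "Qb" => AlgebraicClosure ℚ

attribute [local instance] t2i_dvr t2i_isAlgClosed t2i_charP t2i_fact
attribute [local instance 10000] dliAlgF dliAlgE
attribute [local instance] s33g_neZero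

section LevelChange

variable (𝔓 : FFPlace) {H₁ H : Subgroup 𝔓.I} (hle : H ≤ H₁) [H₁.FiniteIndex] [H.FiniteIndex]
  (N' : ℕ) [NeZero N'] (h2 : 2 ∣ N')

/-- the change of level maps the vertical function of multiplicity `4` to itself -/
theorem dlqlF_mltvpVertD :
    dlqlF 𝔓 hle (N' * 𝔓.p) (mltvpVertD 𝔓 H₁ N' h2) = mltvpVertD 𝔓 H N' h2 := by
  rw [dlqlF_eq_iff]
  apply Subtype.ext
  rw [mltvpVertD_phi, mltvpVertD_phi]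

end LevelChange

section Free

variable (𝔓 : FFPlace) (H : Subgroup 𝔓.I) [H.FiniteIndex] {ϖ : ↥(tbFixO 𝔓 H)}
  (hϖ : Irreducible ϖ) (N' : ℕ) [NeZero N'] (h : ¬ 𝔓.p ∣ N') (h49 : 4 ∣ N' ∨ 9 ∣ N') {n : ℕ}
  (su : T2Setup (t2iBase2Fix 𝔓 H N' h) (Fin n))
  (hx : su.x = t2gaX 𝔓 H N' h (𝔓.p ^ 2)) (hxb : su.xb = (s33qXi 𝔓 N', s33qXi 𝔓 N'))
  (h2 : 2 ∣ N')

/-- **the slopes of the vertical function `g` vanish at the non-cuspidal free places** -/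
theorem mltvp_vert_free1 (P : Place (IsLocalRing.ResidueField ↥𝔓.P) ↥(tbBarF 𝔓 N'))
    (hP : DlsFin 𝔓 N' P)
    (hfree : ∀ Q, (P, Q) ∉ (dlxChart1 𝔓 H hϖ N' h h49 su hx hxb).G.nodes)
    (fV : (↥(modularFunctionFieldBar (N' * 𝔓.p)))ˣ)
    (hfV : (fV : ↥(modularFunctionFieldBar (N' * 𝔓.p))) =
      tbPhiF 𝔓 (N' * 𝔓.p) H (mltvpVertD 𝔓 H N' h2)) :
    dlsSlope 𝔓 N' h fV P = 0 := by
  rw [dlqd_smooth 𝔓 H hϖ N' h (dlxChart1 𝔓 H hϖ N' h h49 su hx hxb) P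
    (dlqd_hP1 𝔓 H hϖ N' h h49 su hx hxb P hP) hfree
    (dlxChart1_finAt 𝔓 H hϖ N' h h49 su hx hxb P _) (dlx_hensH 𝔓 H hϖ N')
    (mltvpVertD 𝔓 H N' h2) (mltvpVertD_ne_zero 𝔓 H N' h2) fV hfV,
    dlqd_D_free 𝔓 H hϖ N' h (dlxChart1 𝔓 H hϖ N' h h49 su hx hxb) P _ hfree _ _
      (mltvpVertD 𝔓 H N' h2) (mltvpVertD_ne_zero 𝔓 H N' h2)
      (mltvp_vert_hor1 𝔓 H hϖ N' h h49 su hx hxb h2), Int.cast_zero]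

end Free

section Cases

variable (𝔓 : FFPlace) (N' : ℕ) [NeZero N'] (h : ¬ 𝔓.p ∣ N') (h49 : 4 ∣ N' ∨ 9 ∣ N')
  (h2 : 2 ∣ N')
  {H₁ H : Subgroup 𝔓.I} [H₁.FiniteIndex] [H.FiniteIndex] (hle : H ≤ H₁)
  {ϖ₁ : ↥(tbFixO 𝔓 H₁)} (hϖ₁ : Irreducible ϖ₁) {ϖ : ↥(tbFixO 𝔓 H)} (hϖ : Irreducible ϖ)
  {n₁ n : ℕ}
  (su₁ : T2Setup (t2iBase2Fix 𝔓 H₁ N' h) (Fin n₁))
  (hx₁ : su₁.x = t2gaX 𝔓 H₁ N' h (𝔓.p ^ 2)) (hxb₁ : su₁.xb = (s33qXi 𝔓 N', s33qXi 𝔓 N'))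
  (su : T2Setup (t2iBase2Fix 𝔓 H N' h) (Fin n))
  (hx : su.x = t2gaX 𝔓 H N' h (𝔓.p ^ 2)) (hxb : su.xb = (s33qXi 𝔓 N', s33qXi 𝔓 N'))

/-- **the case analysis with the vertical function `g`**: the node relations (ONE pair `(δ, γ)`,
`p ∤ δ`) and `p ∣ div zx` give `DlsEis` -/
theorem mltvp_eis
    (hom : DlxHom (dlxChart1 𝔓 H₁ hϖ₁ N' h h49 su₁ hx₁ hxb₁) (dlxChart1 𝔓 H hϖ N' h h49 su hx hxb))
    (hιF : hom.ιF = dlqlF 𝔓 hle (N' * 𝔓.p))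
    (T₁ : DlqfVert (dlxChart1 𝔓 H₁ hϖ₁ N' h h49 su₁ hx₁ hxb₁))
    (hT₁ : T₁.D = mltvpVertD 𝔓 H₁ N' h2)
    (T : DlqfVert (dlxChart1 𝔓 H hϖ N' h h49 su hx hxb)) (hT : T.D = mltvpVertD 𝔓 H N' h2)
    (zx : ↥(tbLevF 𝔓 (N' * 𝔓.p) H)) (hzx0 : zx ≠ 0)
    (hdiv : ∀ v : Place Qb ↥(modularFunctionFieldBar (N' * 𝔓.p)),
      (𝔓.p : ℤ) ∣ v.ord (tbPhiF 𝔓 (N' * 𝔓.p) H zx))
    (Y f : (↥(modularFunctionFieldBar (N' * 𝔓.p)))ˣ)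
    (hY : (Y : ↥(modularFunctionFieldBar (N' * 𝔓.p))) = tbPhiF 𝔓 (N' * 𝔓.p) H zx)
    (hf : (f : ↥(modularFunctionFieldBar (N' * 𝔓.p))) =
      tbPhiF 𝔓 (N' * 𝔓.p) H (mltvpVertD 𝔓 H N' h2))
    (δ γ : ℤ) (hδ : ¬ (𝔓.p : ℤ) ∣ δ)
    (hnode : ∀ (P : Place (IsLocalRing.ResidueField ↥𝔓.P) ↥(tbBarF 𝔓 N'))
      (Q Q' : Place (IsLocalRing.ResidueField ↥𝔓.P) ↥(tbBarF 𝔓 N'))
      (hs : (P, Q) ∈ (dlxChart1 𝔓 H₁ hϖ₁ N' h h49 su₁ hx₁ hxb₁).G.nodes)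
      (hs' : (P, Q') ∈ (dlxChart1 𝔓 H hϖ N' h h49 su hx hxb).G.nodes),
      (𝔓.p : ℤ) ∣ (T.cross hs').slope zx * δ - (T₁.cross hs).slope T₁.D * γ) :
    DlsEis 𝔓 N' h f Y := by
  haveI : Fact 𝔓.p.Prime := ⟨𝔓.hp⟩
  have hhor : ∀ (x : ↥(tbLevF 𝔓 (N' * 𝔓.p) H)) (V : ValuationSubring ↥(tbLevF 𝔓 (N' * 𝔓.p) H))
      (hV : V ∈ t4vpHor ↥(tbFix 𝔓 H) x) [IsDiscreteValuationRing ↥V], (𝔓.p : ℤ) ∣ dlOrd V zx :=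
    fun x V hV _ => dlqh_hor_dvd 𝔓 H (N' * 𝔓.p) zx hzx0 hdiv x V hV
  have hD : hom.ιF T₁.D = T.D := by rw [hιF, hT₁, hT, dlqlF_mltvpVertD]
  have hδ0 : ((δ : ℤ) : ZMod 𝔓.p) ≠ 0 := by
    rwa [Ne, ZMod.intCast_zmod_eq_zero_iff_dvd]
  refine ⟨(γ : ZMod 𝔓.p) * ((δ : ℤ) : ZMod 𝔓.p)⁻¹, ?_, ?_⟩
  · intro P hP
    by_cases hn : ∃ Q', (P, Q') ∈ (dlxChart1 𝔓 H hϖ N' h h49 su hx hxb).G.nodes
    · -- a node at both levels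
      obtain ⟨Q', hs'⟩ := hn
      obtain ⟨Q, hs⟩ := (dlqc_node_iff 𝔓 N' h h49 hϖ₁ hϖ su₁ hx₁ hxb₁ su hx hxb hom T₁ T hD P hP).mpr
        ⟨Q', hs'⟩
      have h1 : dlsSlope 𝔓 N' h Y P = (((T.cross hs').slope zx : ℤ) : ZMod 𝔓.p) :=
        dlqd_cross 𝔓 H hϖ N' h (dlxChart1 𝔓 H hϖ N' h h49 su hx hxb) hs' (T.hfin _ _) T.hens T.D
          T.hD0 T.hDhor T.hD1 T.hD2 zx hzx0 Y hY
      have hf' : (f : ↥(modularFunctionFieldBar (N' * 𝔓.p))) = tbPhiF 𝔓 (N' * 𝔓.p) H T.D := by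
        rw [hT]
        exact hf
      have h2' : dlsSlope 𝔓 N' h f P = (((T.cross hs').slope T.D : ℤ) : ZMod 𝔓.p) :=
        dlqd_cross 𝔓 H hϖ N' h (dlxChart1 𝔓 H hϖ N' h h49 su hx hxb) hs' (T.hfin _ _)
          T.hens T.D T.hD0 T.hDhor T.hD1 T.hD2 T.D T.hD0 f hf'
      have h4 : (T.cross hs').slope T.D = (T₁.cross hs).slope T₁.D := by
        rw [← hD]
        exact dlqf_slope_hom hom hs (T₁.hfin _ _) T₁.hens T₁.D T₁.hD0 T₁.hDhor T₁.hD1 T₁.hD2 hs'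
          (T.hfin _ _) T.hens T.D T.hD0 T.hDhor T.hD1 T.hD2 rfl T₁.hD0
      have h5 := hnode P Q Q' hs hs'
      rw [← ZMod.intCast_zmod_eq_zero_iff_dvd, Int.cast_sub, Int.cast_mul, Int.cast_mul,
        sub_eq_zero] at h5
      rw [h1, h2', h4]
      field_simp
      rw [h5, mul_comm]
    · -- a free place at both levels
      have hn₁ : ¬ ∃ Q, (P, Q) ∈ (dlxChart1 𝔓 H₁ hϖ₁ N' h h49 su₁ hx₁ hxb₁).G.nodes := fun h1 =>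
        hn ((dlqc_node_iff 𝔓 N' h h49 hϖ₁ hϖ su₁ hx₁ hxb₁ su hx hxb hom T₁ T hD P hP).mp h1)
      push Not at hn
      rw [dlqd_free1 𝔓 H hϖ N' h h49 su hx hxb P hP hn zx hzx0 Y hY hhor,
        mltvp_vert_free1 𝔓 H hϖ N' h h49 su hx hxb h2 P hP hn f hf, mul_zero]
  · intro P hP
    exact dlqd_cusp 𝔓 H hϖ N' h h49 su hx hxb P hP zx hzx0 Y hY hhor

end Cases

section Main

variable (𝔓 : FFPlace) (N' : ℕ) [NeZero N'] (h : ¬ 𝔓.p ∣ N') (h49 : 4 ∣ N' ∨ 9 ∣ N')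
  (h2 : 2 ∣ N')
  {H : Subgroup 𝔓.I} [H.FiniteIndex] (hle : H ≤ dliH1 𝔓)
  {ϖ : ↥(tbFixO 𝔓 H)} (hϖ : Irreducible ϖ) {n₁ n : ℕ}
  (su₁ : T2Setup (t2iBase2Fix 𝔓 (dliH1 𝔓) N' h) (Fin n₁))
  (hx₁ : su₁.x = t2gaX 𝔓 (dliH1 𝔓) N' h (𝔓.p ^ 2))
  (hxb₁ : su₁.xb = (s33qXi 𝔓 N', s33qXi 𝔓 N'))
  (su : T2Setup (t2iBase2Fix 𝔓 H N' h) (Fin n))
  (hx : su.x = t2gaX 𝔓 H N' h (𝔓.p ^ 2)) (hxb : su.xb = (s33qXi 𝔓 N', s33qXi 𝔓 N'))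

include hle in
/-- **the conclusion of `mltvp_nodes` gives `DlsEis`** (every odd `p`) -/
theorem mltvp_eis_of_nodes (hodd : 𝔓.p ≠ 2)
    (zx : ↥(tbLevF 𝔓 (N' * 𝔓.p) H)) (hzx0 : zx ≠ 0)
    (hdiv : ∀ v : Place Qb ↥(modularFunctionFieldBar (N' * 𝔓.p)),
      (𝔓.p : ℤ) ∣ v.ord (tbPhiF 𝔓 (N' * 𝔓.p) H zx))
    (Y f : (↥(modularFunctionFieldBar (N' * 𝔓.p)))ˣ)
    (hY : (Y : ↥(modularFunctionFieldBar (N' * 𝔓.p))) = tbPhiF 𝔓 (N' * 𝔓.p) H zx)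
    (hf : (f : ↥(modularFunctionFieldBar (N' * 𝔓.p))) =
      tbPhiF 𝔓 (N' * 𝔓.p) H (mltvpVertD 𝔓 H N' h2))
    (hγ : ∃ γ : ℤ, ∀ (P : Place (IsLocalRing.ResidueField ↥𝔓.P) ↥(tbBarF 𝔓 N'))
      (Q Q' : Place (IsLocalRing.ResidueField ↥𝔓.P) ↥(tbBarF 𝔓 N'))
      (hs : (P, Q) ∈ (dlxChart1 𝔓 (dliH1 𝔓) (dliPi1_irreducible 𝔓) N' h h49 su₁ hx₁ hxb₁).G.nodes)
      (hs' : (P, Q') ∈ (dlxChart1 𝔓 H hϖ N' h h49 su hx hxb).G.nodes),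
      (𝔓.p : ℤ) ∣ ((mltvpVert 𝔓 H hϖ N' h h49 su hx hxb h2).cross hs').slope zx *
          (4 * ((𝔓.p - 1 : ℕ) : ℤ)) -
        ((mltvpVert 𝔓 (dliH1 𝔓) (dliPi1_irreducible 𝔓) N' h h49 su₁ hx₁ hxb₁ h2).cross hs).slope
          (mltvpVertD 𝔓 (dliH1 𝔓) N' h2) * γ) :
    DlsEis 𝔓 N' h f Y := by
  obtain ⟨γ, hγ⟩ := hγ
  exact mltvp_eis 𝔓 N' h h49 h2 hle (dliPi1_irreducible 𝔓) hϖ su₁ hx₁ hxb₁ su hx hxb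
    (dlxLevHom1 𝔓 hle (dliPi1_irreducible 𝔓) hϖ N' h h49 su₁ hx₁ hxb₁ su hx hxb) rfl
    (mltvpVert 𝔓 (dliH1 𝔓) (dliPi1_irreducible 𝔓) N' h h49 su₁ hx₁ hxb₁ h2) rfl
    (mltvpVert 𝔓 H hϖ N' h h49 su hx hxb h2) rfl zx hzx0 hdiv Y f hY hf
    (4 * ((𝔓.p - 1 : ℕ) : ℤ)) γ (mltvp_four_not_dvd 𝔓.hp hodd) hγ

end Main

end Fermat.Agent.MLT
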