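/-
MLT / VertP (helper8), part 7: **the vertical function of multiplicity `4` is a multiplicative
Eisenstein eigenfunction**: `T_ℓ^fun g = c · g ^ (ℓ + 1)`, `c` a cube root of unity.

`g³ · D_{2q} = D_q² · D₂` (`D_r = Δ(q)/Δ(q^r)`), the three `D_r` are `T_ℓ^fun`-eigenfunctions
(`dle_vert_hecke_eq`, general `r ∣ N`), and a cube root of `1` in the function field is a constant.

* `mltvpULS_mul`, `mltvpVLS_cube_delta` (series);
* `mltvp_hecke_eq` : `T_ℓ^fun g = c · g ^ (ℓ + 1)`;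
* `mltvp_vert_hecke` : the `hecke` field of `DlsVert` for any unit with `q`-expansion `mltvpVLS Qb p`.
-/
import Mathlib
import Fermat.Agent.Lib.MLT.VertP.Series
import Fermat.Agent.Lib.Delta.End.VertHecke

set_option autoImplicit false
set_option linter.unusedSectionVars false
set_option linter.unusedVariables false
set_option linter.style.haveILetI false
set_option synthInstance.maxHeartbeats 400000

open HahnSeries ModularCurve Fermat.Agent.T1 Fermat.Agent.Igusa Fermat.Agent.Mazur Fermat.Agent.TW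
  Fermat.Agent.Delta

noncomputable section

namespace Fermat.Agent.MLT

local notation "Qb" => AlgebraicClosure ℚ

section Series

variable (K : Type*) [Field K] (q : ℕ) [NeZero q]

/-- `u · (D_q · D₂) = D_{2q}` -/
theorem mltvpULS_mul :
    haveI : NeZero (2 * q) := ⟨Nat.mul_ne_zero two_ne_zero (NeZero.ne q)⟩
    mltvpULS K q * (unitFinLS K q * unitFinLS K 2) = unitFinLS K (2 * q) := by
  haveI : NeZero (2 * q) := ⟨Nat.mul_ne_zero two_ne_zero (NeZero.ne q)⟩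
  have hD2 := dlxv_unitFinLS_ne_zero K 2
  have hinv : qExpand K q (deltaLS K) * qExpand K q (deltaInvLS K) = 1 := by
    rw [← map_mul, deltaLS_mul_deltaInvLS, map_one]
  have h1 : qExpand K q (unitFinLS K 2) =
      qExpand K q (deltaLS K) * qExpand K (2 * q) (deltaInvLS K) := by
    rw [unitFinLS, map_mul, qExpand_qExpand]
    congr 1
    exact qExpand_congr (mul_comm q 2) _
  rw [mltvpULS, h1]
  calc qExpand K q (deltaLS K) * qExpand K (2 * q) (deltaInvLS K) * (unitFinLS K 2)⁻¹ *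
        (unitFinLS K q * unitFinLS K 2)
      = qExpand K q (deltaLS K) * qExpand K (2 * q) (deltaInvLS K) * unitFinLS K q *
        ((unitFinLS K 2)⁻¹ * unitFinLS K 2) := by ring
    _ = qExpand K q (deltaLS K) * qExpand K (2 * q) (deltaInvLS K) * unitFinLS K q := by
        rw [inv_mul_cancel₀ hD2, mul_one]
    _ = (qExpand K q (deltaLS K) * qExpand K q (deltaInvLS K)) *
        (deltaLS K * qExpand K (2 * q) (deltaInvLS K)) := by
        rw [unitFinLS]; ring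
    _ = unitFinLS K (2 * q) := by rw [hinv, one_mul, unitFinLS]

/-- **`g³ · D_{2q} = D_q² · D₂`** -/
theorem mltvpVLS_cube_delta :
    haveI : NeZero (2 * q) := ⟨Nat.mul_ne_zero two_ne_zero (NeZero.ne q)⟩
    mltvpVLS K q ^ 3 * unitFinLS K (2 * q) = unitFinLS K q ^ 2 * unitFinLS K 2 := by
  haveI : NeZero (2 * q) := ⟨Nat.mul_ne_zero two_ne_zero (NeZero.ne q)⟩
  rw [← mltvpULS_mul K q]
  calc mltvpVLS K q ^ 3 * (mltvpULS K q * (unitFinLS K q * unitFinLS K 2))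
      = (mltvpVLS K q ^ 3 * mltvpULS K q) * (unitFinLS K q * unitFinLS K 2) := by ring
    _ = unitFinLS K q ^ 2 * unitFinLS K 2 := by rw [mltvpVLS_cube]; ring

end Series

section Hecke

variable (N : ℕ) [NeZero N] (q : ℕ) [NeZero q] (h2q : 2 * q ∣ N)

include h2q in
/-- **`T_ℓ^fun g = c · g ^ (ℓ + 1)`** for a function `g` with `q`-expansion `mltvpVLS Qb q`
(`c` a cube root of unity) -/
theorem mltvp_hecke_eq (g : ↥(modularFunctionFieldBar N))
    (hg : (g : LaurentSeries Qb) = mltvpVLS Qb q) {l : ℕ} (hl : l.Prime) (hlN : ¬ l ∣ N) :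
    ∃ c : Qbˣ, tkrHecke N l g = algebraMap Qb ↥(modularFunctionFieldBar N) (c : Qb) * g ^ (l + 1) := by
  haveI : NeZero (2 * q) := ⟨Nat.mul_ne_zero two_ne_zero (NeZero.ne q)⟩
  have hqN : q ∣ N := (dvd_mul_left q 2).trans h2q
  have h2N : 2 ∣ N := (dvd_mul_right 2 q).trans h2q
  have hg0 : g ≠ 0 := by
    rintro rfl
    exact mltvpVLS_ne_zero Qb q hg.symm
  -- the relation in the function field
  have e : g ^ 3 * dleVertF N (2 * q) h2q = dleVertF N q hqN ^ 2 * dleVertF N 2 h2N := by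
    apply Subtype.ext
    push_cast
    rw [hg, coe_dleVertF, coe_dleVertF, coe_dleVertF]
    exact mltvpVLS_cube_delta Qb q
  have hF0 : dleVertF N (2 * q) h2q ≠ 0 := dleVertF_ne_zero N (2 * q) h2q
  have e2 := congrArg (tkrHecke N l) e
  rw [map_mul, map_pow, map_mul, map_pow,
    dle_vert_hecke_eq N (2 * q) h2q _ (coe_dleVertF N (2 * q) h2q) hl hlN,
    dle_vert_hecke_eq N q hqN _ (coe_dleVertF N q hqN) hl hlN,
    dle_vert_hecke_eq N 2 h2N _ (coe_dleVertF N 2 h2N) hl hlN] at e2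
  have e3 : tkrHecke N l g ^ 3 * dleVertF N (2 * q) h2q ^ (l + 1) =
      (g ^ (l + 1)) ^ 3 * dleVertF N (2 * q) h2q ^ (l + 1) := by
    rw [e2]
    calc (dleVertF N q hqN ^ (l + 1)) ^ 2 * dleVertF N 2 h2N ^ (l + 1)
        = (dleVertF N q hqN ^ 2 * dleVertF N 2 h2N) ^ (l + 1) := by ring
      _ = (g ^ 3 * dleVertF N (2 * q) h2q) ^ (l + 1) := by rw [e]
      _ = _ := by ring
  have e4 : tkrHecke N l g ^ 3 = (g ^ (l + 1)) ^ 3 :=
    mul_right_cancel₀ (pow_ne_zero _ hF0) e3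
  have hgl0 : g ^ (l + 1) ≠ 0 := pow_ne_zero _ hg0
  -- the cube root of unity
  have hω : (tkrHecke N l g * (g ^ (l + 1))⁻¹) ^ 3 = 1 := by
    rw [mul_pow, e4, inv_pow, mul_inv_cancel₀ (pow_ne_zero _ hgl0)]
  haveI : NeZero ((3 : ℕ) : Qb) := ⟨by norm_num⟩
  obtain ⟨ζ, hζ⟩ := HasEnoughRootsOfUnity.exists_primitiveRoot Qb 3
  have hζ' : IsPrimitiveRoot (algebraMap Qb ↥(modularFunctionFieldBar N) ζ) 3 :=
    hζ.map_of_injective (algebraMap Qb ↥(modularFunctionFieldBar N)).injective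
  obtain ⟨i, -, hi⟩ := hζ'.eq_pow_of_pow_eq_one hω
  have hζ0 : ζ ≠ 0 := hζ.ne_zero (by norm_num)
  refine ⟨Units.mk0 (ζ ^ i) (pow_ne_zero _ hζ0), ?_⟩
  rw [Units.val_mk0, map_pow, hi, mul_assoc, inv_mul_cancel₀ hgl0, mul_one]

end Hecke

section Vert

attribute [local instance] Fermat.Agent.S33.s33g_neZero dle_neZero_p

variable (𝔓 : FFPlace) (N' : ℕ) [NeZero N'] (h2 : 2 ∣ N')

include h2 in
/-- **the `hecke` field of `DlsVert 𝔓 N' h f`**, for any unit `f` with `q`-expansion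
`mltvpVLS Qb p` (`u = 1`) -/
theorem mltvp_vert_hecke (f : (↥(modularFunctionFieldBar (N' * 𝔓.p)))ˣ)
    (hf : ((f : ↥(modularFunctionFieldBar (N' * 𝔓.p))) : LaurentSeries Qb) =
      mltvpVLS Qb 𝔓.p) :
    ∀ ℓ : ℕ, ℓ.Prime → ¬ ℓ ∣ N' * 𝔓.p →
      ∃ (c : Qbˣ) (u : (↥(modularFunctionFieldBar (N' * 𝔓.p)))ˣ),
        tkrHecke (N' * 𝔓.p) ℓ (f : ↥(modularFunctionFieldBar (N' * 𝔓.p))) =
          algebraMap Qb _ (c : Qb) * ((f ^ (ℓ + 1) * u ^ 𝔓.p :
            (↥(modularFunctionFieldBar (N' * 𝔓.p)))ˣ) : ↥(modularFunctionFieldBar (N' * 𝔓.p))) := by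
  intro ℓ hℓ hℓN
  obtain ⟨c, hc⟩ := mltvp_hecke_eq (N' * 𝔓.p) 𝔓.p (Nat.mul_dvd_mul h2 dvd_rfl) _ hf hℓ hℓN
  refine ⟨c, 1, ?_⟩
  rw [hc, one_pow, mul_one, Units.val_pow_eq_pow_val]

end Vert

end Fermat.Agent.MLT
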