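/-
MLT / VertP (helper8), part 8: **the (CHAIN) input of DELTA at every odd `p`** (in particular `p = 3`)
with the vertical function of multiplicity `4`.

Forks of helper4's `DlwCore` / `dlw_core_of_cases` / `dlw_chain_of_core` (`Delta/Wire/{Chain,Core2}`)
with `unitFinLS Qb p` replaced by `mltvpVLS Qb p`, `dlq_nodes` by `mltvp_nodes`, `dlqc_eis_of_nodes` by
`mltvp_eis_of_nodes` (`δ = 4 (p − 1)`, prime to every odd `p`).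

* `MltvpCore`, `mltvp_core`, `mltvp_chain_of_core`;
* `mltvpVertUnit`, `coe_mltvpVertUnit`;
* **`mltvp_inputs_odd`** : for every `𝔓` with `𝔓.p ≠ 2`, `4 ∣ K`, `p ∤ K`: a unit `f` of the function
  field of `X₀(K p)` with the `hecke` property and `DlwChain 𝔓 K hK f`
  (`= MltphInputsThree` of helper4's `AtP/H/LowerCore3.lean` when `𝔓.p = 3`);
  `mltvp_inputs_three` : the literal body of `MltphInputsThree`.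
-/
import Mathlib
import Fermat.Agent.Lib.MLT.VertP.Cases
import Fermat.Agent.Lib.MLT.VertP.Hecke
import Fermat.Agent.Lib.Delta.Wire.Core2

set_option autoImplicit false
set_option linter.unusedSectionVars false
set_option linter.unusedVariables false
set_option linter.style.haveILetI false
set_option synthInstance.maxHeartbeats 400000
set_option maxHeartbeats 1000000

open HahnSeries ModularCurve Fermat.Agent.T1 Fermat.Agent.T2 Fermat.Agent.T4 Fermat.Agent.TW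
  Fermat.Agent.S05Lib Fermat.Agent.S24Lib IntermediateField AlgebraicCurve Fermat.Agent.Curve Module
  Fermat.Agent.S33 Fermat.Agent.S33Q Fermat.Agent.Alpha Fermat.Agent.Igusa Fermat.Agent.Delta
  Fermat.Agent.T3

noncomputable section

namespace Fermat.Agent.MLT

local notation "Qb" => AlgebraicClosure ℚ
local notation "GQ" => (AlgebraicClosure ℚ ≃ₐ[ℚ] AlgebraicClosure ℚ)

attribute [local instance] t2i_dvr t2i_isAlgClosed t2i_charP t2i_fact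
attribute [local instance 10000] dliAlgF dliAlgE
attribute [local instance] s33g_neZero
attribute [local instance] t2gp_fact
attribute [local instance] dlw_neZero_p

variable (𝔓 : FFPlace) (K : ℕ) [NeZero K] (hK : ¬ 𝔓.p ∣ K)

/-- **CORE** for the vertical function of multiplicity `4` (`DlwCore` with `unitFinLS Qb p` replaced
by `mltvpVLS Qb p`) -/
def MltvpCore : Prop :=
  ∀ (l₀ : JZero (K * 𝔓.p)) (Z : ↥(tbLevF 𝔓 (K * 𝔓.p) (dliH1 𝔓))),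
    DliKummer 𝔓 K hK l₀ Z → l₀ ≠ 0 →
  ∀ (u₁ : ↥(tbFix 𝔓 (dliH1 𝔓))), (tbFixO 𝔓 (dliH1 𝔓)).valuation u₁ = 1 →
  ∀ (ζ₁ : ↥(tbFix 𝔓 (dliH1 𝔓))), IsPrimitiveRoot ζ₁ 𝔓.p →
  ∀ (τ₁ : DlyRoot 𝔓.p Z →+* DlyRoot 𝔓.p Z),
    (∀ f : ↥(tbLevF 𝔓 (K * 𝔓.p) (dliH1 𝔓)),
      τ₁ (algebraMap ↥(tbLevF 𝔓 (K * 𝔓.p) (dliH1 𝔓)) (DlyRoot 𝔓.p Z) f) =
        algebraMap ↥(tbLevF 𝔓 (K * 𝔓.p) (dliH1 𝔓)) (DlyRoot 𝔓.p Z) f) →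
    τ₁ (AdjoinRoot.root _) =
      algebraMap ↥(tbLevF 𝔓 (K * 𝔓.p) (dliH1 𝔓)) (DlyRoot 𝔓.p Z)
        (algebraMap ↥(tbFix 𝔓 (dliH1 𝔓)) ↥(tbLevF 𝔓 (K * 𝔓.p) (dliH1 𝔓)) ζ₁) *
          AdjoinRoot.root _ →
  ∀ (H : Subgroup 𝔓.I) (_ : H.FiniteIndex) (_ : H.Normal) (hle : H ≤ dliH1 𝔓)
    (zx : ↥(tbLevF 𝔓 (K * 𝔓.p) H)) (hzx0 : tbPhiF 𝔓 (K * 𝔓.p) H zx ≠ 0),
    (∀ v : Place Qb ↥(modularFunctionFieldBar (K * 𝔓.p)),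
      (𝔓.p : ℤ) ∣ v.ord (tbPhiF 𝔓 (K * 𝔓.p) H zx)) →
  ∀ (r : DlyRoot 𝔓.p (dlqlF 𝔓 hle (K * 𝔓.p) Z)) (z' g : DlyRoot 𝔓.p Z) (n : ℕ),
    r ≠ 0 → z' ≠ 0 → g ≠ 0 →
    dlyRootMap 𝔓.p (dlqlF 𝔓 hle (K * 𝔓.p)) Z z' =
      algebraMap ↥(tbLevF 𝔓 (K * 𝔓.p) H) (DlyRoot 𝔓.p (dlqlF 𝔓 hle (K * 𝔓.p) Z)) zx *
        r ^ 𝔓.p →
    algebraMap ↥(tbLevF 𝔓 (K * 𝔓.p) (dliH1 𝔓)) (DlyRoot 𝔓.p Z)
        (algebraMap ↥(tbFix 𝔓 (dliH1 𝔓)) ↥(tbLevF 𝔓 (K * 𝔓.p) (dliH1 𝔓)) u₁) ^ n *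
      τ₁ z' = g ^ 𝔓.p * z' →
  ∀ (f : (↥(modularFunctionFieldBar (K * 𝔓.p)))ˣ),
    ((f : ↥(modularFunctionFieldBar (K * 𝔓.p))) : LaurentSeries Qb) = mltvpVLS Qb 𝔓.p →
    DlsEis 𝔓 K hK f (Units.mk0 (tbPhiF 𝔓 (K * 𝔓.p) H zx) hzx0)

/-- **CORE** for the vertical function of multiplicity `4`, every odd `p`, every rigid level with
`2 ∣ K` -/
theorem mltvp_core (h49 : 4 ∣ K ∨ 9 ∣ K) (h2 : 2 ∣ K) (hodd : 𝔓.p ≠ 2) : MltvpCore 𝔓 K hK := by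
  intro l₀ Z hKum hl₀0 u₁ hu₁ ζ₁ hζ₁ τ₁ hτof hτroot H hfi hnorm hle zx hzx0 hzx r z' g n hr hz' hg
    hrel hτ f hf
  haveI := hfi
  obtain ⟨hZ0, hZ, hcls⟩ := hKum.cls
  -- irreducibility at both levels
  have hnp : ∀ c : ↥(modularFunctionFieldBar (K * 𝔓.p)),
      c ^ 𝔓.p ≠ tbPhiF 𝔓 (K * 𝔓.p) (dliH1 𝔓) Z :=
    dla_npow_of_class_ne_zero (K * 𝔓.p) 𝔓.hp.ne_zero _ hZ0 hZ (by rw [hcls]; exact hl₀0)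
  haveI hirr₁ : Fact (Irreducible (Polynomial.X ^ 𝔓.p - Polynomial.C Z :
      Polynomial ↥(tbLevF 𝔓 (K * 𝔓.p) (dliH1 𝔓)))) :=
    ⟨dlqi_irr_base 𝔓 (K * 𝔓.p) 𝔓.hp Z hnp⟩
  haveI hirr₂ : Fact (Irreducible (Polynomial.X ^ 𝔓.p -
      Polynomial.C (dlqlF 𝔓 hle (K * 𝔓.p) Z) : Polynomial ↥(tbLevF 𝔓 (K * 𝔓.p) H))) :=
    ⟨dlqi_irr_level 𝔓 (K * 𝔓.p) hle 𝔓.hp Z hnp⟩
  -- the setups and a uniformiser at the level `H`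
  obtain ⟨n₁, su₁, hx₁, hxb₁⟩ := s33q_exists_setup_level 𝔓 K hK h49 (dliH1 𝔓)
  obtain ⟨n₂, su, hx, hxb⟩ := s33q_exists_setup_level 𝔓 K hK h49 H
  obtain ⟨ϖ, hϖ⟩ := IsDiscreteValuationRing.exists_irreducible ↥(tbFixO 𝔓 H)
  have hzx' : zx ≠ 0 := fun h0 => hzx0 (by rw [h0, map_zero])
  -- `τ₁` is the `τ` of the cover
  have hτY : ∀ z, τ₁ z = (dlqiCover1 𝔓 K ζ₁ hζ₁ Z).τ z :=
    dlqiCover1_tau 𝔓 K ζ₁ hζ₁ Z τ₁ hτof hτroot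
  -- the constant `e`
  obtain ⟨e, he⟩ : ∃ e : ↥(tbLevF 𝔓 (K * 𝔓.p) (dliH1 𝔓)),
      e = (algebraMap ↥(tbFix 𝔓 (dliH1 𝔓)) ↥(tbLevF 𝔓 (K * 𝔓.p) (dliH1 𝔓)) u₁ ^ n)⁻¹ := ⟨_, rfl⟩
  have hu0 : algebraMap ↥(tbFix 𝔓 (dliH1 𝔓)) ↥(tbLevF 𝔓 (K * 𝔓.p) (dliH1 𝔓)) u₁ ≠ 0 := by
    refine (_root_.map_ne_zero _).mpr ?_
    rintro rfl
    rw [map_zero] at hu₁
    exact zero_ne_one hu₁
  have hτz : (dlqiCover1 𝔓 K ζ₁ hζ₁ Z).τ z' =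
      algebraMap ↥(tbLevF 𝔓 (K * 𝔓.p) (dliH1 𝔓)) (DlyRoot 𝔓.p Z) e * g ^ 𝔓.p * z' := by
    rw [← hτY, he, map_inv₀, map_pow]
    have ha0 : algebraMap ↥(tbLevF 𝔓 (K * 𝔓.p) (dliH1 𝔓)) (DlyRoot 𝔓.p Z)
        (algebraMap ↥(tbFix 𝔓 (dliH1 𝔓)) ↥(tbLevF 𝔓 (K * 𝔓.p) (dliH1 𝔓)) u₁) ^ n ≠ 0 :=
      pow_ne_zero _ ((_root_.map_ne_zero _).mpr hu0)
    rw [mul_assoc, ← hτ, ← mul_assoc, inv_mul_cancel₀ ha0, one_mul]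
  have hγ := mltvp_nodes 𝔓 K hK h49 h2 hle hϖ su₁ hx₁ hxb₁ su hx hxb
    (dlqiCover1 𝔓 K ζ₁ hζ₁ Z) (dlqiCover2 𝔓 K ζ₁ hζ₁ hle Z)
    (dlqiCover1_ϖ 𝔓 K ζ₁ hζ₁ Z) (dlqiCover1_η 𝔓 K ζ₁ hζ₁ Z)
    (dlyRootMap 𝔓.p (dlqlF 𝔓 hle (K * 𝔓.p)) Z)
    (dlqiCover_hsq 𝔓 K hle Z) (dlqiCover_hy 𝔓 K ζ₁ hζ₁ hle Z)
    (dlqiCover_hϖ₂ 𝔓 K ζ₁ hζ₁ hle Z) hKum hodd hzx' hr hz' hrel
    (dlqi_hhor 𝔓 (K * 𝔓.p) hle 𝔓.hp Z hnp hrel hzx) e g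
    (by rw [he]; exact dlqi_hei1 𝔓 (dliH1 𝔓) (dliPi1_irreducible 𝔓) K hK h49 su₁ hx₁ hxb₁ hu₁ n _)
    (by rw [he]; exact dlqi_hez1 𝔓 (dliH1 𝔓) (dliPi1_irreducible 𝔓) K hK h49 su₁ hx₁ hxb₁ hu₁ n _)
    hτz
  have hf' : (f : ↥(modularFunctionFieldBar (K * 𝔓.p))) =
      tbPhiF 𝔓 (K * 𝔓.p) H (mltvpVertD 𝔓 H K h2) :=
    Subtype.ext (hf.trans (mltvpVertD_phi 𝔓 H K h2).symm)
  exact mltvp_eis_of_nodes 𝔓 K hK h49 h2 hle hϖ su₁ hx₁ hxb₁ su hx hxb hodd zx hzx' hzx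
    (Units.mk0 _ hzx0) f rfl hf' hγ

variable {𝔓 K hK}

/-- **(CHAIN) from CORE**, for the vertical function of multiplicity `4` -/
theorem mltvp_chain_of_core (hcore : MltvpCore 𝔓 K hK) (h49 : 4 ∣ K ∨ 9 ∣ K) (hp2 : 2 < 𝔓.p)
    (f : (↥(modularFunctionFieldBar (K * 𝔓.p)))ˣ)
    (hf : ((f : ↥(modularFunctionFieldBar (K * 𝔓.p))) : LaurentSeries Qb) = mltvpVLS Qb 𝔓.p) :
    DlwChain 𝔓 K hK f := by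
  intro ζ hζ V L₁ hat hcard htor hstab hA hB
  obtain ⟨hVC, l₀, Z, hl₀, hl₀0, hKum⟩ :=
    dlw_chain_kummer 𝔓 K hK h49 hp2 hζ V L₁ hat hcard htor hA hB
  refine ⟨hVC, fun x hxV hxL Y hY hYx => ?_⟩
  obtain ⟨hZ0, hZ, hcls⟩ := hKum.cls
  obtain ⟨u₁, hu₁, hcov⟩ :=
    dlw_chain_cover 𝔓 K hζ V L₁ hat htor hl₀ hl₀0 Z hZ0 hZ hcls hKum.lc
  -- the automorphism of the cover
  obtain ⟨τ₁, hτof, hτroot⟩ := dlw_exists_tau Z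
    (algebraMap ↥(tbFix 𝔓 (dliH1 𝔓)) ↥(tbLevF 𝔓 (K * 𝔓.p) (dliH1 𝔓)) (dliZeta1 𝔓))
    (by rw [← map_pow, (dliZeta1_prim 𝔓).pow_eq_one, map_one])
  obtain ⟨H, hfi, hnorm, hle, zx, hzx0, hzx, hclsx, r, z', g, n, hr, hz', hg, hrel, hτ⟩ :=
    hcov x hxV hxL (dliZeta1 𝔓) (dliZeta1_prim 𝔓) τ₁ hτof hτroot
  have hE := hcore l₀ Z hKum hl₀0 u₁ hu₁ (dliZeta1 𝔓) (dliZeta1_prim 𝔓) τ₁ hτof hτroot H hfi hnorm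
    hle zx hzx0 hzx r z' g n hr hz' hg hrel hτ f hf
  exact dlw_eis_of_class_eq (f := f) (Y := Units.mk0 (tbPhiF 𝔓 (K * 𝔓.p) H zx) hzx0) (Z := Y)
    hzx hY (hclsx.trans hYx.symm) hE

variable (𝔓 K)

/-- **the vertical unit of multiplicity `4`** in the function field of `X₀(K p)` over `ℚ̄` -/
def mltvpVertUnit (h2 : 2 ∣ K) : (↥(modularFunctionFieldBar (K * 𝔓.p)))ˣ :=
  Units.mk0 (tbPhiF 𝔓 (K * 𝔓.p) (dliH1 𝔓) (mltvpVertD 𝔓 (dliH1 𝔓) K h2))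
    ((_root_.map_ne_zero _).mpr (mltvpVertD_ne_zero 𝔓 (dliH1 𝔓) K h2))

theorem coe_mltvpVertUnit (h2 : 2 ∣ K) :
    (((mltvpVertUnit 𝔓 K h2 : (↥(modularFunctionFieldBar (K * 𝔓.p)))ˣ) :
      ↥(modularFunctionFieldBar (K * 𝔓.p))) : LaurentSeries Qb) = mltvpVLS Qb 𝔓.p :=
  mltvpVertD_phi 𝔓 (dliH1 𝔓) K h2

/-- **the (CHAIN) input of DELTA at every odd `p`**, rigid levels `4 ∣ K`: a vertical multiplicative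
Eisenstein eigenfunction `f` with `DlwChain 𝔓 K hK f` -/
theorem mltvp_inputs_odd (𝔓 : FFPlace) (K : ℕ) [NeZero K] (hK : ¬ 𝔓.p ∣ K) (h4 : 4 ∣ K)
    (hodd : 𝔓.p ≠ 2) :
    ∃ f : (↥(modularFunctionFieldBar (K * 𝔓.p)))ˣ,
      (∀ ℓ : ℕ, ℓ.Prime → ¬ ℓ ∣ K * 𝔓.p →
        ∃ (c : Qbˣ) (u : (↥(modularFunctionFieldBar (K * 𝔓.p)))ˣ),
          tkrHecke (K * 𝔓.p) ℓ (f : ↥(modularFunctionFieldBar (K * 𝔓.p))) =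
            algebraMap Qb _ (c : Qb) * ((f ^ (ℓ + 1) * u ^ 𝔓.p :
              (↥(modularFunctionFieldBar (K * 𝔓.p)))ˣ) :
                ↥(modularFunctionFieldBar (K * 𝔓.p)))) ∧
      DlwChain 𝔓 K hK f := by
  have h2 : 2 ∣ K := (by norm_num : (2 : ℕ) ∣ 4).trans h4
  have hp2 : 2 < 𝔓.p := lt_of_le_of_ne 𝔓.hp.two_le (Ne.symm hodd)
  refine ⟨mltvpVertUnit 𝔓 K h2, ?_, ?_⟩
  · exact mltvp_vert_hecke 𝔓 K h2 _ (coe_mltvpVertUnit 𝔓 K h2)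
  · exact mltvp_chain_of_core (mltvp_core 𝔓 K hK (Or.inl h4) h2 hodd) (Or.inl h4) hp2 _
      (coe_mltvpVertUnit 𝔓 K h2)

/-- **the literal body of helper4's `MltphInputsThree`** (`AtP/H/LowerCore3.lean`) -/
theorem mltvp_inputs_three :
    ∀ (𝔓 : FFPlace) (K : ℕ) [NeZero K] (hK : ¬ 𝔓.p ∣ K), 4 ∣ K → 𝔓.p = 3 →
      ∃ f : (↥(modularFunctionFieldBar (K * 𝔓.p)))ˣ,
        (∀ ℓ : ℕ, ℓ.Prime → ¬ ℓ ∣ K * 𝔓.p →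
          ∃ (c : Qbˣ) (u : (↥(modularFunctionFieldBar (K * 𝔓.p)))ˣ),
            tkrHecke (K * 𝔓.p) ℓ (f : ↥(modularFunctionFieldBar (K * 𝔓.p))) =
              algebraMap Qb _ (c : Qb) * ((f ^ (ℓ + 1) * u ^ 𝔓.p :
                (↥(modularFunctionFieldBar (K * 𝔓.p)))ˣ) :
                  ↥(modularFunctionFieldBar (K * 𝔓.p)))) ∧
        DlwChain 𝔓 K hK f := by
  intro 𝔓 K _ hK h4 h3
  exact mltvp_inputs_odd 𝔓 K hK h4 (by rw [h3]; norm_num)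

end Fermat.Agent.MLT
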